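import Mathlib

/-!
# Case I of Fermat's Last Theorem for `p ∈ {5, 7, 11, 13}` via Sophie Germain's theorem

Pure integer arithmetic (helper35, module M1 of the S10/S11 plan).
-/

set_option autoImplicit false

namespace Fermat.Agent.S10

open Finset

/-- The cofactor of `y + z` in `y ^ p + z ^ p` (for odd `p`). -/
def h35_phi (p : ℕ) (y z : ℤ) : ℤ := ∑ i ∈ range p, y ^ i * (-z) ^ (p - 1 - i)

theorem h35_phi_mul {p : ℕ} (hp : Odd p) (y z : ℤ) :
    (y + z) * h35_phi p y z = y ^ p + z ^ p := by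
  have h := (Commute.all y (-z)).geom_sum₂_mul p
  rw [hp.neg_pow, sub_neg_eq_add, sub_neg_eq_add] at h
  rw [h35_phi, mul_comm, h]

/-- In a commutative ring, if `Y + Z = 0` then the cofactor is `p * Y ^ (p - 1)`. -/
theorem h35_sum_of_add_eq_zero {R : Type*} [CommRing R] (p : ℕ) {Y Z : R} (h : Y + Z = 0) :
    ∑ i ∈ range p, Y ^ i * (-Z) ^ (p - 1 - i) = (p : R) * Y ^ (p - 1) := by
  have hZ : -Z = Y := by rw [← sub_eq_zero]; linear_combination -h
  rw [hZ]
  have : ∀ i ∈ range p, Y ^ i * Y ^ (p - 1 - i) = Y ^ (p - 1) := by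
    intro i hi
    rw [← pow_add]
    congr 1
    have := mem_range.mp hi
    omega
  rw [sum_congr rfl this, sum_const, card_range, nsmul_eq_mul]

/-- In a commutative ring, if `X = 0` then the cofactor is `(-Y) ^ (p - 1)`. -/
theorem h35_sum_of_eq_zero {R : Type*} [CommRing R] {p : ℕ} (hp : 0 < p) {X : R} (Y : R)
    (h : X = 0) :
    ∑ i ∈ range p, X ^ i * (-Y) ^ (p - 1 - i) = (-Y) ^ (p - 1) := by
  subst h
  rw [sum_eq_single 0]
  · simp
  · intro i _ hi
    rw [zero_pow hi, zero_mul]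
  · intro h0
    exact absurd (mem_range.mpr hp) h0

theorem h35_cast_phi (R : Type*) [CommRing R] (p : ℕ) (y z : ℤ) :
    ((h35_phi p y z : ℤ) : R) = ∑ i ∈ range p, (y : R) ^ i * (-(z : R)) ^ (p - 1 - i) := by
  simp [h35_phi]

/-- Coprimality of the two factors of `y ^ p + z ^ p`. -/
theorem h35_isCoprime_add_phi {p : ℕ} (hp : p.Prime) (hp2 : p ≠ 2) {x y z : ℤ}
    (hyz : IsCoprime y z) (hpx : ¬ (p : ℤ) ∣ x) (h : x ^ p + y ^ p + z ^ p = 0) :
    IsCoprime (y + z) (h35_phi p y z) := by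
  have hodd : Odd p := hp.odd_of_ne_two hp2
  have hmul := h35_phi_mul hodd y z
  rw [Int.isCoprime_iff_gcd_eq_one]
  by_contra hne
  obtain ⟨r, hr, hrd⟩ := Nat.exists_prime_and_dvd hne
  have hr1 : (r : ℤ) ∣ y + z := (Int.natCast_dvd_natCast.mpr hrd).trans (Int.gcd_dvd_left _ _)
  have hr2 : (r : ℤ) ∣ h35_phi p y z :=
    (Int.natCast_dvd_natCast.mpr hrd).trans (Int.gcd_dvd_right _ _)
  have hrp : Prime (r : ℤ) := Nat.prime_iff_prime_int.mp hr
  -- reduce mod r
  have h1 : ((y : ZMod r) + (z : ZMod r)) = 0 := by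
    have := (ZMod.intCast_zmod_eq_zero_iff_dvd (y + z) r).mpr hr1
    simpa using this
  have h2 : ((h35_phi p y z : ℤ) : ZMod r) = 0 :=
    (ZMod.intCast_zmod_eq_zero_iff_dvd _ r).mpr hr2
  rw [h35_cast_phi, h35_sum_of_add_eq_zero p h1] at h2
  have : Fact r.Prime := ⟨hr⟩
  rcases mul_eq_zero.mp h2 with h3 | h3
  · -- r = p, so p ∣ y + z ∣ x ^ p
    have hrp' : r ∣ p := (ZMod.natCast_eq_zero_iff p r).mp h3
    have hrp'' : r = p := (Nat.prime_dvd_prime_iff_eq hr hp).mp hrp'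
    subst hrp''
    have hx : (r : ℤ) ∣ x ^ r := by
      have : x ^ r = -((y + z) * h35_phi r y z) := by rw [hmul]; linear_combination h
      rw [this]
      exact (dvd_mul_of_dvd_left hr1 _).neg_right
    exact hpx (hrp.dvd_of_dvd_pow hx)
  · -- r ∣ y, hence r ∣ z
    have hy0 : (y : ZMod r) = 0 := by
      have hp1 : p - 1 ≠ 0 := by have := hp.two_le; omega
      exact (pow_eq_zero_iff hp1).mp h3
    have hry : (r : ℤ) ∣ y := (ZMod.intCast_zmod_eq_zero_iff_dvd y r).mp hy0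
    have hrz : (r : ℤ) ∣ z := (dvd_add_right hry).mp hr1
    exact hrp.not_isUnit (hyz.isUnit_of_dvd' hry hrz)

/-- Both factors of `y ^ p + z ^ p = (-x) ^ p` are `p`-th powers. -/
theorem h35_exists_pow {p : ℕ} (hp : p.Prime) (hp2 : p ≠ 2) {x y z : ℤ}
    (hyz : IsCoprime y z) (hpx : ¬ (p : ℤ) ∣ x) (h : x ^ p + y ^ p + z ^ p = 0) :
    (∃ a : ℤ, y + z = a ^ p) ∧ ∃ α : ℤ, h35_phi p y z = α ^ p := by
  have hodd : Odd p := hp.odd_of_ne_two hp2
  have hmul : (y + z) * h35_phi p y z = (-x) ^ p := by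
    rw [h35_phi_mul hodd, hodd.neg_pow]; linear_combination h
  exact Int.eq_pow_of_mul_eq_pow_odd (h35_isCoprime_add_phi hp hp2 hyz hpx h) hodd hmul

/-- Core of Sophie Germain's theorem: the auxiliary prime `q` cannot divide `x`. -/
theorem h35_core {p q : ℕ} (hp : p.Prime) (hp2 : p ≠ 2) (hq : q.Prime)
    (h1 : ∀ x y z : ZMod q, x ^ p + y ^ p + z ^ p = 0 → x * y * z = 0)
    (h2 : ∀ n : ZMod q, n ^ p ≠ (p : ZMod q))
    {x y z : ℤ} (hxy : IsCoprime x y) (hyz : IsCoprime y z) (hzx : IsCoprime z x)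
    (hpx : ¬ (p : ℤ) ∣ x) (hpy : ¬ (p : ℤ) ∣ y) (hpz : ¬ (p : ℤ) ∣ z)
    (h : x ^ p + y ^ p + z ^ p = 0) (hqx : (q : ℤ) ∣ x) : False := by
  have : Fact q.Prime := ⟨hq⟩
  have hodd : Odd p := hp.odd_of_ne_two hp2
  have hqp : Prime (q : ℤ) := Nat.prime_iff_prime_int.mp hq
  obtain ⟨⟨a, ha⟩, ⟨α, hα⟩⟩ := h35_exists_pow hp hp2 hyz hpx h
  obtain ⟨⟨b, hb⟩, -⟩ := h35_exists_pow hp hp2 hzx hpy (x := y) (y := z) (z := x)
    (by linear_combination h)
  obtain ⟨⟨c, hc⟩, ⟨γ, hγ⟩⟩ := h35_exists_pow hp hp2 hxy hpz (x := z) (y := x) (z := y)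
    (by linear_combination h)
  have hx0 : (x : ZMod q) = 0 := (ZMod.intCast_zmod_eq_zero_iff_dvd x q).mpr hqx
  -- `q` does not divide `y` or `z`
  have hqy : ¬ (q : ℤ) ∣ y := fun hy => hqp.not_isUnit (hxy.isUnit_of_dvd' hqx hy)
  have hqz : ¬ (q : ℤ) ∣ z := fun hz => hqp.not_isUnit (hzx.isUnit_of_dvd' hz hqx)
  have hy0 : (y : ZMod q) ≠ 0 := fun h0 => hqy ((ZMod.intCast_zmod_eq_zero_iff_dvd y q).mp h0)
  have hz0 : (z : ZMod q) ≠ 0 := fun h0 => hqz ((ZMod.intCast_zmod_eq_zero_iff_dvd z q).mp h0)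
  -- b ^ p + c ^ p + (-a) ^ p = 2 x ≡ 0 mod q
  have habc : (b : ZMod q) ^ p + (c : ZMod q) ^ p + (-(a : ZMod q)) ^ p = 0 := by
    have e : b ^ p + c ^ p + (-a) ^ p = 2 * x := by
      rw [hodd.neg_pow, ← ha, ← hb, ← hc]; ring
    have e' := congrArg (Int.cast : ℤ → ZMod q) e
    push_cast at e'
    rw [e', hx0, mul_zero]
  have hbca := h1 _ _ _ habc
  -- `q ∤ b`, `q ∤ c`
  have hb0 : (b : ZMod q) ≠ 0 := by
    intro hb0
    have e' := congrArg (Int.cast : ℤ → ZMod q) hb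
    push_cast at e'
    rw [hb0, hx0, add_zero, zero_pow hp.ne_zero] at e'
    exact hz0 e'
  have hc0 : (c : ZMod q) ≠ 0 := by
    intro hc0
    have e' := congrArg (Int.cast : ℤ → ZMod q) hc
    push_cast at e'
    rw [hc0, hx0, zero_add, zero_pow hp.ne_zero] at e'
    exact hy0 e'
  have ha0 : (a : ZMod q) = 0 := by
    rcases mul_eq_zero.mp hbca with h3 | h3
    · rcases mul_eq_zero.mp h3 with h4 | h4
      · exact absurd h4 hb0
      · exact absurd h4 hc0
    · exact neg_eq_zero.mp h3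
  -- hence y + z ≡ 0 mod q
  have hyz0 : (y : ZMod q) + (z : ZMod q) = 0 := by
    have e' := congrArg (Int.cast : ℤ → ZMod q) ha
    push_cast at e'
    rw [e', ha0, zero_pow hp.ne_zero]
  -- α ^ p = p * y ^ (p - 1), γ ^ p = y ^ (p - 1) in ZMod q
  have hα' : (α : ZMod q) ^ p = (p : ZMod q) * (y : ZMod q) ^ (p - 1) := by
    have e' := congrArg (Int.cast : ℤ → ZMod q) hα
    rw [h35_cast_phi, h35_sum_of_add_eq_zero p hyz0] at e'
    push_cast at e'
    exact e'.symm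
  have hγ' : (γ : ZMod q) ^ p = (y : ZMod q) ^ (p - 1) := by
    have e' := congrArg (Int.cast : ℤ → ZMod q) hγ
    rw [h35_cast_phi, h35_sum_of_eq_zero hp.pos _ hx0] at e'
    push_cast at e'
    rw [← e']
    have heven : Even (p - 1) := hp.even_sub_one hp2
    exact heven.neg_pow (y : ZMod q)
  have hγ0 : (γ : ZMod q) ≠ 0 := by
    intro h0
    rw [h0, zero_pow hp.ne_zero] at hγ'
    have hp1 : p - 1 ≠ 0 := by have := hp.two_le; omega
    exact hy0 ((pow_eq_zero_iff hp1).mp hγ'.symm)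
  refine h2 ((α : ZMod q) * (γ : ZMod q)⁻¹) ?_
  rw [mul_pow, inv_pow, hα', hγ', ← hγ', mul_assoc, mul_inv_cancel₀ (pow_ne_zero _ hγ0), mul_one]

/-- **Sophie Germain's theorem**, symmetric form. -/
theorem h35_sophieGermain_symm {p q : ℕ} (hp : p.Prime) (hp2 : p ≠ 2) (hq : q.Prime)
    (h1 : ∀ x y z : ZMod q, x ^ p + y ^ p + z ^ p = 0 → x * y * z = 0)
    (h2 : ∀ n : ZMod q, n ^ p ≠ (p : ZMod q))
    {x y z : ℤ} (hxy : IsCoprime x y) (hyz : IsCoprime y z) (hzx : IsCoprime z x)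
    (hpx : ¬ (p : ℤ) ∣ x) (hpy : ¬ (p : ℤ) ∣ y) (hpz : ¬ (p : ℤ) ∣ z)
    (h : x ^ p + y ^ p + z ^ p = 0) : False := by
  have : Fact q.Prime := ⟨hq⟩
  have e' := congrArg (Int.cast : ℤ → ZMod q) h
  push_cast at e'
  have hxyz := h1 _ _ _ e'
  rcases mul_eq_zero.mp hxyz with h3 | h3
  · rcases mul_eq_zero.mp h3 with h4 | h4
    · exact h35_core hp hp2 hq h1 h2 hxy hyz hzx hpx hpy hpz h
        ((ZMod.intCast_zmod_eq_zero_iff_dvd x q).mp h4)
    · exact h35_core hp hp2 hq h1 h2 hyz hzx hxy hpy hpz hpx (by linear_combination h)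
        ((ZMod.intCast_zmod_eq_zero_iff_dvd y q).mp h4)
  · exact h35_core hp hp2 hq h1 h2 hzx hxy hyz hpz hpx hpy (by linear_combination h)
      ((ZMod.intCast_zmod_eq_zero_iff_dvd z q).mp h3)

/-- **Sophie Germain's theorem**: if `q` is an auxiliary prime for the odd prime `p`, then every
coprime solution of `a ^ p + b ^ p = c ^ p` has `p ∣ a * b * c` (i.e. Case I is impossible). -/
theorem sophieGermain {p q : ℕ} (hp : p.Prime) (hp2 : p ≠ 2) (hq : q.Prime)
    (h1 : ∀ x y z : ZMod q, x ^ p + y ^ p + z ^ p = 0 → x * y * z = 0)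
    (h2 : ∀ n : ZMod q, n ^ p ≠ (p : ZMod q))
    {a b c : ℤ} (hab : IsCoprime a b) (h : a ^ p + b ^ p = c ^ p) : (p : ℤ) ∣ a * b * c := by
  have hodd : Odd p := hp.odd_of_ne_two hp2
  have hpp : Prime (p : ℤ) := Nat.prime_iff_prime_int.mp hp
  by_contra hnd
  have hpa : ¬ (p : ℤ) ∣ a := fun hd => hnd ((hd.mul_right b).mul_right c)
  have hpb : ¬ (p : ℤ) ∣ b := fun hd => hnd ((hd.mul_left a).mul_right c)
  have hpc : ¬ (p : ℤ) ∣ -c := fun hd => hnd ((dvd_neg.mp hd).mul_left (a * b))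
  -- pairwise coprimality
  have hbc : IsCoprime b (-c) := by
    have h3 : IsCoprime b (c ^ p) := by
      rw [← h]
      have : IsCoprime b (a ^ p) := hab.symm.pow_right
      have h4 : a ^ p + b ^ p = a ^ p + b ^ (p - 1) * b := by
        rw [← pow_succ]; congr 2; have := hp.pos; omega
      rw [h4]
      exact this.add_mul_right_right _
    exact ((IsCoprime.pow_right_iff hp.pos).mp h3).neg_right
  have hca : IsCoprime (-c) a := by
    have h3 : IsCoprime a (c ^ p) := by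
      rw [← h]
      have : IsCoprime a (b ^ p) := hab.pow_right
      have h4 : a ^ p + b ^ p = b ^ p + a ^ (p - 1) * a := by
        rw [← pow_succ, add_comm]; congr 2; have := hp.pos; omega
      rw [h4]
      exact this.add_mul_right_right _
    exact ((IsCoprime.pow_right_iff hp.pos).mp h3).neg_right.symm
  refine h35_sophieGermain_symm hp hp2 hq h1 h2 hab hbc hca hpa hpb hpc ?_
  rw [hodd.neg_pow]; linear_combination h

/-- Criterion for the first auxiliary-prime condition: the nonzero `p`-th powers lie in a small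
set `S` no three elements of which sum to zero. -/
theorem h35_cond_one {q p : ℕ} (S : Finset (ZMod q))
    (hS : ∀ x : ZMod q, x = 0 ∨ x ^ p ∈ S)
    (hsum : ∀ r ∈ S, ∀ s ∈ S, ∀ t ∈ S, r + s + t ≠ 0) :
    ∀ x y z : ZMod q, x ^ p + y ^ p + z ^ p = 0 → x * y * z = 0 := by
  intro x y z h
  rcases hS x with hx | hx
  · rw [hx, zero_mul, zero_mul]
  rcases hS y with hy | hy
  · rw [hy, mul_zero, zero_mul]
  rcases hS z with hz | hz
  · rw [hz, mul_zero]
  exact absurd h (hsum _ hx _ hy _ hz)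

theorem h35_caseI_five {a b c : ℤ} (hab : IsCoprime a b) (h : a ^ 5 + b ^ 5 = c ^ 5) :
    ((5 : ℕ) : ℤ) ∣ a * b * c :=
  sophieGermain (p := 5) (q := 11) (by norm_num) (by norm_num) (by norm_num)
    (h35_cond_one ({1, -1} : Finset (ZMod 11)) (by decide +kernel) (by decide +kernel))
    (by decide +kernel) hab h

theorem h35_caseI_seven {a b c : ℤ} (hab : IsCoprime a b) (h : a ^ 7 + b ^ 7 = c ^ 7) :
    ((7 : ℕ) : ℤ) ∣ a * b * c :=
  sophieGermain (p := 7) (q := 29) (by norm_num) (by norm_num) (by norm_num)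
    (h35_cond_one ({1, -1, 12, -12} : Finset (ZMod 29)) (by decide +kernel) (by decide +kernel))
    (by decide +kernel) hab h

theorem h35_caseI_eleven {a b c : ℤ} (hab : IsCoprime a b) (h : a ^ 11 + b ^ 11 = c ^ 11) :
    ((11 : ℕ) : ℤ) ∣ a * b * c :=
  sophieGermain (p := 11) (q := 23) (by norm_num) (by norm_num) (by norm_num)
    (h35_cond_one ({1, -1} : Finset (ZMod 23)) (by decide +kernel) (by decide +kernel))
    (by decide +kernel) hab h

theorem h35_caseI_thirteen {a b c : ℤ} (hab : IsCoprime a b) (h : a ^ 13 + b ^ 13 = c ^ 13) :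
    ((13 : ℕ) : ℤ) ∣ a * b * c :=
  sophieGermain (p := 13) (q := 53) (by norm_num) (by norm_num) (by norm_num)
    (h35_cond_one ({1, -1, 23, -23} : Finset (ZMod 53)) (by decide +kernel) (by decide +kernel))
    (by decide +kernel) hab h

/-- **Case I of FLT is impossible for `p ∈ {5, 7, 11, 13}`**: any coprime solution of
`a ^ p + b ^ p = c ^ p` has `p ∣ a * b * c`. -/
theorem caseI {p : ℕ} (hp : p = 5 ∨ p = 7 ∨ p = 11 ∨ p = 13) {a b c : ℤ} (hab : IsCoprime a b)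
    (h : a ^ p + b ^ p = c ^ p) : (p : ℤ) ∣ a * b * c := by
  rcases hp with rfl | rfl | rfl | rfl
  · exact h35_caseI_five hab h
  · exact h35_caseI_seven hab h
  · exact h35_caseI_eleven hab h
  · exact h35_caseI_thirteen hab h

/-! ### The exact interface requested by the S10 integrator -/

theorem caseI_five {a b c : ℤ} (hab : IsCoprime a b) (h : ¬ (5 : ℤ) ∣ a * b * c) :
    a ^ 5 + b ^ 5 ≠ c ^ 5 :=
  fun he => h (by exact_mod_cast h35_caseI_five hab he)

theorem caseI_seven {a b c : ℤ} (hab : IsCoprime a b) (h : ¬ (7 : ℤ) ∣ a * b * c) :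
    a ^ 7 + b ^ 7 ≠ c ^ 7 :=
  fun he => h (by exact_mod_cast h35_caseI_seven hab he)

theorem caseI_eleven {a b c : ℤ} (hab : IsCoprime a b) (h : ¬ (11 : ℤ) ∣ a * b * c) :
    a ^ 11 + b ^ 11 ≠ c ^ 11 :=
  fun he => h (by exact_mod_cast h35_caseI_eleven hab he)

theorem caseI_thirteen {a b c : ℤ} (hab : IsCoprime a b) (h : ¬ (13 : ℤ) ∣ a * b * c) :
    a ^ 13 + b ^ 13 ≠ c ^ 13 :=
  fun he => h (by exact_mod_cast h35_caseI_thirteen hab he)

end Fermat.Agent.S10
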