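import Mathlib

set_option linter.unusedSectionVars false
set_option linter.unusedVariables false

namespace Fermat.Agent.S10

open Finset

section abstract

variable {R : Type*} [CommRing R] [IsDomain R] {p : ℕ} {ζ : R}

lemma zeta_sub_one_dvd_pow_sub_one (ζ : R) (i : ℕ) : (ζ - 1) ∣ ζ ^ i - 1 := by
  simpa using sub_dvd_pow_sub_pow ζ 1 i

lemma assoc_zeta_pow_sub_one (hp : p.Prime) (hζ : IsPrimitiveRoot ζ p) {i : ℕ} (hi : ¬ p ∣ i) :
    Associated (ζ - 1) (ζ ^ i - 1) :=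
  hζ.associated_sub_one_pow_sub_one_of_coprime ((Nat.Prime.coprime_iff_not_dvd hp).2 hi).symm

lemma zeta_sub_one_ne_zero (hp : p.Prime) (hζ : IsPrimitiveRoot ζ p) : ζ - 1 ≠ 0 :=
  sub_ne_zero.2 (hζ.ne_one hp.one_lt)

lemma isUnit_zeta (hp : p.Prime) (hζ : IsPrimitiveRoot ζ p) : IsUnit ζ :=
  hζ.isUnit hp.ne_zero

lemma isUnit_one_add_zeta (hp : p.Prime) (hp2 : p ≠ 2) (hζ : IsPrimitiveRoot ζ p) :
    IsUnit (1 + ζ) := by
  have h2 : ¬ p ∣ 2 := fun h => hp2 ((Nat.prime_dvd_prime_iff_eq hp Nat.prime_two).1 h)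
  obtain ⟨u, hu⟩ := assoc_zeta_pow_sub_one hp hζ h2
  have h : (ζ - 1) * (u : R) = (ζ - 1) * (1 + ζ) := by rw [hu]; ring
  have := mul_left_cancel₀ (zeta_sub_one_ne_zero hp hζ) h
  rw [← this]; exact u.isUnit

lemma assoc_p_pow (hp : p.Prime) (hζ : IsPrimitiveRoot ζ p) :
    Associated ((ζ - 1) ^ (p - 1)) (p : R) := by
  have hp1 : p - 1 + 1 = p := Nat.sub_add_cancel hp.one_le
  have hζ' : IsPrimitiveRoot ζ (p - 1 + 1) := by rwa [hp1]
  have key := hζ'.prod_one_sub_pow_eq_order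
  have hcast : ((p - 1 : ℕ) : R) + 1 = (p : R) := by
    rw [← Nat.cast_succ, Nat.succ_eq_add_one, hp1]
  rw [hcast] at key
  rw [← key]
  have : ∀ k ∈ range (p - 1), Associated (ζ - 1) (1 - ζ ^ (k + 1)) := by
    intro k hk
    have hk' : k + 1 < p := by have := mem_range.1 hk; omega
    have hnd : ¬ p ∣ k + 1 := fun h => by have := Nat.le_of_dvd (Nat.succ_pos k) h; omega
    have h1 := assoc_zeta_pow_sub_one hp hζ hnd
    have h2 : Associated (ζ ^ (k + 1) - 1) (1 - ζ ^ (k + 1)) := by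
      rw [← neg_sub]; exact (Associated.refl _).neg_left
    exact h1.trans h2
  have h3 := Associated.prod (s := range (p - 1)) (fun _ => ζ - 1) (fun k => 1 - ζ ^ (k + 1)) this
  simpa using h3

lemma zeta_sub_one_dvd_p (hp : p.Prime) (hζ : IsPrimitiveRoot ζ p) : (ζ - 1) ∣ (p : R) :=
  (dvd_pow_self _ (by have := hp.two_le; omega)).trans (assoc_p_pow hp hζ).dvd

lemma p_dvd_zeta_sub_one_pow (hp : p.Prime) (hζ : IsPrimitiveRoot ζ p) :
    (p : R) ∣ (ζ - 1) ^ p :=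
  (assoc_p_pow hp hζ).symm.dvd.trans (pow_dvd_pow _ (Nat.sub_le p 1))

/-- An integer divisible by `ζ - 1` is divisible by `p`. -/
lemma int_dvd_of_zeta_sub_one_dvd (hp : p.Prime) (hζ : IsPrimitiveRoot ζ p) (hπ : Prime (ζ - 1))
    {n : ℤ} (h : (ζ - 1) ∣ (n : R)) : (p : ℤ) ∣ n := by
  by_contra hn
  have hcop : IsCoprime (p : ℤ) n :=
    (Nat.prime_iff_prime_int.1 hp).irreducible.coprime_iff_not_dvd.2 hn
  obtain ⟨a, b, hab⟩ := hcop
  have h1 : (ζ - 1) ∣ ((a * p + b * n : ℤ) : R) := by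
    push_cast
    exact dvd_add ((zeta_sub_one_dvd_p hp hζ).mul_left _) (h.mul_left _)
  rw [hab] at h1
  exact hπ.not_isUnit (isUnit_of_dvd_one (by simpa using h1))

lemma zeta_sub_one_dvd_int (hp : p.Prime) (hζ : IsPrimitiveRoot ζ p) {n : ℤ}
    (h : (p : ℤ) ∣ n) : (ζ - 1) ∣ (n : R) := by
  obtain ⟨k, rfl⟩ := h
  push_cast
  exact (zeta_sub_one_dvd_p hp hζ).mul_right _

/-- If `ζ - 1 ∣ a - b` then `(ζ - 1) ^ p ∣ a ^ p - b ^ p`. -/
lemma zeta_sub_one_pow_dvd_pow_sub_pow (hp : p.Prime) (hζ : IsPrimitiveRoot ζ p) {a b : R}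
    (h : (ζ - 1) ∣ a - b) : (ζ - 1) ^ p ∣ a ^ p - b ^ p := by
  rw [hζ.pow_sub_pow_eq_prod_sub_mul a b hp.pos]
  have hcard : (ζ - 1) ^ p = ∏ _η ∈ Polynomial.nthRootsFinset p (1 : R), (ζ - 1) := by
    rw [Finset.prod_const, hζ.card_nthRootsFinset]
  rw [hcard]
  apply Finset.prod_dvd_prod_of_dvd
  intro η hη
  have hη1 : η ^ p = 1 := (Polynomial.mem_nthRootsFinset hp.pos 1).1 hη
  have : NeZero p := ⟨hp.ne_zero⟩
  obtain ⟨i, -, rfl⟩ := hζ.eq_pow_of_pow_eq_one hη1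
  have : a - ζ ^ i * b = (a - b) - (ζ ^ i - 1) * b := by ring
  rw [this]
  exact dvd_sub h ((zeta_sub_one_dvd_pow_sub_one ζ i).mul_right _)

lemma prod_add_zeta_pow_mul (hp : p.Prime) (hp2 : p ≠ 2) (hζ : IsPrimitiveRoot ζ p) (x y : R) :
    ∏ j ∈ range p, (x + ζ ^ j * y) = x ^ p + y ^ p := by
  rw [hζ.pow_add_pow_eq_prod_add_mul x y (hp.odd_of_ne_two hp2)]
  have : NeZero p := ⟨hp.ne_zero⟩
  refine Finset.prod_bij (fun j _ => ζ ^ j) ?_ ?_ ?_ ?_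
  · intro j _
    rw [Polynomial.mem_nthRootsFinset hp.pos, ← pow_mul, mul_comm, pow_mul, hζ.pow_eq_one, one_pow]
  · intro i hi j hj h
    exact hζ.pow_inj (mem_range.1 hi) (mem_range.1 hj) h
  · intro η hη
    obtain ⟨i, hi, rfl⟩ := hζ.eq_pow_of_pow_eq_one ((Polynomial.mem_nthRootsFinset hp.pos 1).1 hη)
    exact ⟨i, mem_range.2 hi, rfl⟩
  · intro j _; rfl

lemma exists_sq_dvd (hp : p.Prime) (hζ : IsPrimitiveRoot ζ p) (hπ : Prime (ζ - 1))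
    (hres : ∀ x : R, ∃ n : ℤ, (ζ - 1) ∣ x - n)
    {x y : R} (hy : ¬ (ζ - 1) ∣ y) (hxy : (ζ - 1) ∣ x + y) :
    ∃ i : ℕ, (ζ - 1) ^ 2 ∣ x + ζ ^ i * y := by
  obtain ⟨t, ht⟩ := hxy
  obtain ⟨nt, hnt⟩ := hres t
  obtain ⟨ny, hny⟩ := hres y
  have hpy : ¬ (p : ℤ) ∣ ny := by
    intro h
    apply hy
    have := zeta_sub_one_dvd_int (R := R) hp hζ h
    have h2 := dvd_add hny this
    simpa using h2
  have := Fact.mk hp
  have hny0 : (ny : ZMod p) ≠ 0 := by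
    rwa [Ne, ZMod.intCast_zmod_eq_zero_iff_dvd]
  obtain ⟨i, hi⟩ : ∃ i : ℕ, (p : ℤ) ∣ nt + i * ny := by
    refine ⟨((-(nt : ZMod p)) * (ny : ZMod p)⁻¹).val, ?_⟩
    rw [← ZMod.intCast_zmod_eq_zero_iff_dvd]
    push_cast
    rw [ZMod.natCast_val, ZMod.cast_id', id]
    field_simp
    ring
  refine ⟨i, ?_⟩
  have hs : ζ ^ i - 1 = (ζ - 1) * ∑ j ∈ range i, ζ ^ j := (mul_geom_sum ζ i).symm
  have hs' : (ζ - 1) ∣ (∑ j ∈ range i, ζ ^ j) - (i : R) := by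
    have : (∑ j ∈ range i, ζ ^ j) - (i : R) = ∑ j ∈ range i, (ζ ^ j - 1) := by
      simp [Finset.sum_sub_distrib]
    rw [this]
    exact Finset.dvd_sum (fun j _ => zeta_sub_one_dvd_pow_sub_one ζ j)
  have h1 : x + ζ ^ i * y = (ζ - 1) * (t + (∑ j ∈ range i, ζ ^ j) * y) := by
    linear_combination ht + y * hs
  rw [h1, pow_two]
  apply mul_dvd_mul_left
  have h4 : (ζ - 1) ∣ ((nt + i * ny : ℤ) : R) := zeta_sub_one_dvd_int hp hζ hi
  have h5 : t + (∑ j ∈ range i, ζ ^ j) * y = (t - nt) + ((∑ j ∈ range i, ζ ^ j) - i) * y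
      + i * (y - ny) + ((nt + i * ny : ℤ) : R) := by
    push_cast; ring
  rw [h5]
  exact dvd_add (dvd_add (dvd_add hnt (hs'.mul_right _)) (hny.mul_left _)) h4

lemma descent_core [IsPrincipalIdealRing R] (hp : p.Prime) (hp2 : p ≠ 2)
    (hζ : IsPrimitiveRoot ζ p) (hπ : Prime (ζ - 1))
    (hres : ∀ x : R, ∃ n : ℤ, (ζ - 1) ∣ x - n)
    (hkummer : ∀ u : Rˣ, (∃ n : ℤ, (p : R) ∣ (u : R) - n) → ∃ v : Rˣ, u = v ^ p)
    {x y z0 : R} {ε : Rˣ} {m : ℕ} (hm : 1 ≤ m) (hy : ¬ (ζ - 1) ∣ y)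
    (hz0 : ¬ (ζ - 1) ∣ z0) (hxy : IsCoprime x y) (hsq : (ζ - 1) ^ 2 ∣ x + y)
    (H : x ^ p + y ^ p = ε * ((ζ - 1) ^ m * z0) ^ p) :
    2 ≤ m ∧ ∃ (x' y' z0' : R) (ε' : Rˣ), ¬ (ζ - 1) ∣ x' ∧ ¬ (ζ - 1) ∣ y' ∧ ¬ (ζ - 1) ∣ z0' ∧
      IsCoprime x' y' ∧ x' ^ p + y' ^ p = ε' * ((ζ - 1) ^ (m - 1) * z0') ^ p := by
  have hp3 : 3 ≤ p := by have := hp.two_le; omega
  have hϖ0 : ζ - 1 ≠ 0 := zeta_sub_one_ne_zero hp hζ
  -- all factors are divisible by `ζ - 1`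
  have hdiv : ∀ j : ℕ, (ζ - 1) ∣ x + ζ ^ j * y := by
    intro j
    have : x + ζ ^ j * y = (x + y) + (ζ ^ j - 1) * y := by ring
    rw [this]
    exact dvd_add ((dvd_pow_self _ two_ne_zero).trans hsq)
      ((zeta_sub_one_dvd_pow_sub_one ζ j).mul_right _)
  choose w hw using hdiv
  have hdiff : ∀ j k : ℕ, k < j → j < p →
      ∃ u : Rˣ, w j - w k = u * y ∧ ζ ^ k * w j - ζ ^ j * w k = - (u * x) := by
    intro j k hkj hjp
    have hnd : ¬ p ∣ j - k := fun h => by have := Nat.le_of_dvd (by omega) h; omega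
    obtain ⟨u, hu⟩ := assoc_zeta_pow_sub_one hp hζ hnd
    have hjk : ζ ^ j = ζ ^ k * ζ ^ (j - k) := by rw [← pow_add]; congr 1; omega
    let v : Rˣ := (isUnit_zeta hp hζ).unit ^ k * u
    have hv : (v : R) = ζ ^ k * u := by simp [v]
    refine ⟨v, ?_, ?_⟩
    · apply mul_left_cancel₀ hϖ0
      rw [hv]
      linear_combination (-1 : R) * hw j + hw k - ζ ^ k * y * hu + y * hjk
    · apply mul_left_cancel₀ hϖ0
      rw [hv]
      linear_combination (-ζ ^ k) * hw j + ζ ^ j * hw k + ζ ^ k * x * hu - x * hjk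
  have hcop_lt : ∀ j k : ℕ, k < j → j < p → IsCoprime (w j) (w k) := by
    intro j k hkj hjp
    obtain ⟨u, hu1, hu2⟩ := hdiff j k hkj hjp
    obtain ⟨a, b, hab⟩ := hxy
    refine ⟨↑u⁻¹ * (b - a * ζ ^ k), ↑u⁻¹ * (a * ζ ^ j - b), ?_⟩
    have h1 : (b - a * ζ ^ k) * w j + (a * ζ ^ j - b) * w k = u := by
      linear_combination b * hu1 - a * hu2 + (u : R) * hab
    calc _ = ↑u⁻¹ * ((b - a * ζ ^ k) * w j + (a * ζ ^ j - b) * w k) := by ring
      _ = 1 := by rw [h1]; simp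
  have hcop : ∀ j ∈ range p, ∀ k ∈ range p, j ≠ k → IsCoprime (w j) (w k) := by
    intro j hj k hk hjk
    rcases Nat.lt_or_gt_of_ne hjk with h | h
    · exact (hcop_lt k j h (mem_range.1 hk)).symm
    · exact hcop_lt j k h (mem_range.1 hj)
  have hprod : ∏ j ∈ range p, w j = ε * ((ζ - 1) ^ (m - 1) * z0) ^ p := by
    have h1 : ∏ j ∈ range p, (x + ζ ^ j * y) = (ζ - 1) ^ p * ∏ j ∈ range p, w j := by
      rw [Finset.prod_congr rfl (fun j _ => hw j), Finset.prod_mul_distrib, Finset.prod_const,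
        card_range]
    rw [prod_add_zeta_pow_mul hp hp2 hζ, H] at h1
    apply mul_left_cancel₀ (pow_ne_zero p hϖ0)
    rw [← h1]
    have h2 : (ζ - 1) ^ m = (ζ - 1) * (ζ - 1) ^ (m - 1) := by
      rw [← pow_succ']; congr 1; omega
    rw [h2]
    generalize ζ - 1 = ϖ
    generalize ϖ ^ (m - 1) = A
    ring
  have hpow : ∀ j ∈ range p, ∃ d : R, Associated (d ^ p) (w j) := by
    intro j hj
    have h1 : w j * (↑ε⁻¹ * ∏ k ∈ (range p).erase j, w k) = ((ζ - 1) ^ (m - 1) * z0) ^ p := by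
      have h3 := Finset.mul_prod_erase (range p) w hj
      calc _ = ↑ε⁻¹ * (w j * ∏ k ∈ (range p).erase j, w k) := by ring
        _ = _ := by rw [h3, hprod, ← mul_assoc]; simp
    have h2 : IsCoprime (w j) (↑ε⁻¹ * ∏ k ∈ (range p).erase j, w k) := by
      rw [isCoprime_mul_unit_left_right (Units.isUnit _)]
      exact IsCoprime.prod_right (fun k hk =>
        hcop j hj k (Finset.mem_of_mem_erase hk) (Finset.ne_of_mem_erase hk).symm)
    exact exists_associated_pow_of_mul_eq_pow' h2 h1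
  have h0 : (0 : ℕ) ∈ range p := mem_range.2 hp.pos
  have h1 : (1 : ℕ) ∈ range p := mem_range.2 hp.one_lt
  have h2 : (p - 1) ∈ range p := mem_range.2 (by omega)
  have hw0 : (ζ - 1) ∣ w 0 := by
    have h3 := hw 0
    rw [pow_zero, one_mul] at h3
    rw [h3, pow_two] at hsq
    exact (mul_dvd_mul_iff_left hϖ0).1 hsq
  have hm2 : 2 ≤ m := by
    by_contra hlt
    have hm1 : m = 1 := by omega
    have h3 : (ζ - 1) ∣ ∏ j ∈ range p, w j := hw0.trans (Finset.dvd_prod_of_mem w h0)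
    rw [hprod, hm1] at h3
    have h4 := (Units.isUnit ε).dvd_mul_left.1 h3
    have h5 := hπ.dvd_of_dvd_pow h4
    simp at h5
    exact hz0 h5
  refine ⟨hm2, ?_⟩
  have hwj : ∀ j : ℕ, 0 < j → j < p → ¬ (ζ - 1) ∣ w j := by
    intro j hj0 hjp hdvd
    obtain ⟨u, hu1, -⟩ := hdiff j 0 hj0 hjp
    have h3 : (ζ - 1) ∣ (u : R) * y := by rw [← hu1]; exact dvd_sub hdvd hw0
    exact hy ((Units.isUnit u).dvd_mul_left.1 h3)
  obtain ⟨ρ0, u0, hρ0⟩ := hpow 0 h0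
  obtain ⟨ρ1, u1, hρ1⟩ := hpow 1 h1
  obtain ⟨ρ2, u2, hρ2⟩ := hpow (p - 1) h2
  have hζp : ζ * ζ ^ (p - 1) = 1 := by
    rw [← pow_succ', Nat.sub_add_cancel hp.one_le, hζ.pow_eq_one]
  have hid : w 1 + ζ * w (p - 1) = (1 + ζ) * w 0 := by
    apply mul_left_cancel₀ hϖ0
    have e0 := hw 0
    have e1 := hw 1
    have e2 := hw (p - 1)
    rw [pow_zero, one_mul] at e0
    rw [pow_one] at e1
    linear_combination (-1 : R) * e1 - ζ * e2 + (1 + ζ) * e0 + y * hζp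
  have hW : ¬ (ζ - 1) ∣ ∏ k ∈ (range p).erase 0, w k := by
    rw [Prime.dvd_finsetProd_iff hπ]
    rintro ⟨k, hk, hdvd⟩
    exact hwj k (Nat.pos_of_ne_zero (Finset.ne_of_mem_erase hk))
      (mem_range.1 (Finset.mem_of_mem_erase hk)) hdvd
  have hw0W : w 0 * ∏ k ∈ (range p).erase 0, w k = ε * ((ζ - 1) ^ (m - 1) * z0) ^ p := by
    rw [Finset.mul_prod_erase (range p) w h0, hprod]
  have hρ0dvd : (ζ - 1) ^ (m - 1) ∣ ρ0 := by
    have h3 : (ζ - 1) ^ ((m - 1) * p) ∣ w 0 * ∏ k ∈ (range p).erase 0, w k := by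
      rw [hw0W, mul_pow, pow_mul]
      exact Dvd.dvd.mul_left (Dvd.intro _ rfl) _
    have h4 := hπ.pow_dvd_of_dvd_mul_right _ hW h3
    rw [← hρ0, pow_mul] at h4
    have h5 : ((ζ - 1) ^ (m - 1)) ^ p ∣ ρ0 ^ p := (Units.dvd_mul_right).1 h4
    exact (UniqueFactorizationMonoid.pow_dvd_pow_iff_dvd hp.ne_zero).1 h5
  obtain ⟨z0', hz0'⟩ := hρ0dvd
  have hz0'nd : ¬ (ζ - 1) ∣ z0' := by
    rintro ⟨c, hc⟩
    have h3 : ((ζ - 1) ^ (m - 1)) ^ p * (ζ - 1) ^ p ∣ w 0 * ∏ k ∈ (range p).erase 0, w k := by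
      rw [← hρ0, hz0', hc]
      refine Dvd.dvd.mul_right ?_ _
      refine Dvd.dvd.mul_right ?_ _
      refine Dvd.intro (c ^ p) ?_
      generalize ζ - 1 = ϖ
      generalize ϖ ^ (m - 1) = A
      ring
    rw [hw0W] at h3
    have h3' : ((ζ - 1) ^ (m - 1)) ^ p * (ζ - 1) ^ p ∣ ((ζ - 1) ^ (m - 1)) ^ p * (ε * z0 ^ p) := by
      have e : ((ζ - 1) ^ (m - 1)) ^ p * ((ε : R) * z0 ^ p) = ε * ((ζ - 1) ^ (m - 1) * z0) ^ p := by
        generalize (ζ - 1) ^ (m - 1) = A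
        ring
      rw [e]; exact h3
    have h4 := (mul_dvd_mul_iff_left (pow_ne_zero p (pow_ne_zero (m - 1) hϖ0))).1 h3'
    have h5 : (ζ - 1) ∣ (ε : R) * z0 ^ p := (dvd_pow_self _ hp.ne_zero).trans h4
    exact hz0 (hπ.dvd_of_dvd_pow ((Units.isUnit ε).dvd_mul_left.1 h5))
  have hρ1nd : ¬ (ζ - 1) ∣ ρ1 := fun h =>
    hwj 1 one_pos hp.one_lt (by rw [← hρ1]; exact (dvd_pow h hp.ne_zero).mul_right _)
  have hρ2nd : ¬ (ζ - 1) ∣ ρ2 := fun h =>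
    hwj (p - 1) (by omega) (by omega) (by rw [← hρ2]; exact (dvd_pow h hp.ne_zero).mul_right _)
  have hρcop : IsCoprime ρ1 ρ2 := by
    have h3 := hcop 1 h1 (p - 1) h2 (by omega)
    rw [← hρ1, ← hρ2, isCoprime_mul_units_right (Units.isUnit _) (Units.isUnit _)] at h3
    exact (IsCoprime.pow_iff hp.pos hp.pos).1 h3
  -- the new equation
  let η0 : Rˣ := (isUnit_zeta hp hζ).unit
  let θ : Rˣ := (isUnit_one_add_zeta hp hp2 hζ).unit
  have hη0 : (η0 : R) = ζ := rfl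
  have hθ : (θ : R) = 1 + ζ := rfl
  let ε' : Rˣ := η0 * u2 * u1⁻¹
  let ε'' : Rˣ := θ * u0 * u1⁻¹
  have hnew : ρ1 ^ p + ε' * ρ2 ^ p = ε'' * ρ0 ^ p := by
    have h3 : (u1 : R) * (ρ1 ^ p + ε' * ρ2 ^ p) = u1 * (ε'' * ρ0 ^ p) := by
      have e1 : (u1 : R) * (ε' : R) = ζ * u2 := by
        simp only [ε', Units.val_mul, hη0]
        calc (u1 : R) * (ζ * u2 * ↑u1⁻¹) = ζ * u2 * (u1 * ↑u1⁻¹) := by ring
          _ = ζ * u2 := by simp
      have e2 : (u1 : R) * (ε'' : R) = (1 + ζ) * u0 := by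
        simp only [ε'', Units.val_mul, hθ]
        calc (u1 : R) * ((1 + ζ) * u0 * ↑u1⁻¹) = (1 + ζ) * u0 * (u1 * ↑u1⁻¹) := by ring
          _ = (1 + ζ) * u0 := by simp
      calc (u1 : R) * (ρ1 ^ p + ε' * ρ2 ^ p) = ρ1 ^ p * u1 + (u1 * ε') * ρ2 ^ p := by ring
        _ = w 1 + ζ * w (p - 1) := by rw [e1, hρ1, ← hρ2]; ring
        _ = (1 + ζ) * w 0 := hid
        _ = (u1 * ε'') * ρ0 ^ p := by rw [e2, ← hρ0]; ring
        _ = u1 * (ε'' * ρ0 ^ p) := by ring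
    exact mul_left_cancel₀ (Units.ne_zero u1) h3
  -- Kummer's lemma applies to ε'
  have hkum : ∃ n : ℤ, (p : R) ∣ (ε' : R) - n := by
    obtain ⟨n1, hn1⟩ := hres ρ1
    obtain ⟨n2, hn2⟩ := hres ρ2
    have hd1 := zeta_sub_one_pow_dvd_pow_sub_pow hp hζ hn1
    have hd2 := zeta_sub_one_pow_dvd_pow_sub_pow hp hζ hn2
    have hd0 : (ζ - 1) ^ p ∣ (ε'' : R) * ρ0 ^ p := by
      rw [hz0', mul_pow]
      refine Dvd.dvd.mul_left (Dvd.dvd.mul_right ?_ _) _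
      exact pow_dvd_pow_of_dvd (dvd_pow_self _ (by omega)) p
    have hd3 : (ζ - 1) ^ p ∣ (n1 : R) ^ p + ε' * (n2 : R) ^ p := by
      have e : (n1 : R) ^ p + ε' * (n2 : R) ^ p
          = ε'' * ρ0 ^ p - (ρ1 ^ p - (n1 : R) ^ p) - ε' * (ρ2 ^ p - (n2 : R) ^ p) := by
        rw [← hnew]; ring
      rw [e]
      exact dvd_sub (dvd_sub hd0 hd1) (hd2.mul_left _)
    have hd4 : (p : R) ∣ (n1 : R) ^ p + ε' * (n2 : R) ^ p :=
      (p_dvd_zeta_sub_one_pow hp hζ).trans hd3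
    have hn2p : ¬ (p : ℤ) ∣ n2 := by
      intro h
      apply hρ2nd
      have h3 := dvd_add hn2 (zeta_sub_one_dvd_int (R := R) hp hζ h)
      simpa using h3
    have hcop2 : IsCoprime (n2 ^ p) (p : ℤ) :=
      (((Nat.prime_iff_prime_int.1 hp).irreducible.coprime_iff_not_dvd.2 hn2p).symm).pow_left
    obtain ⟨c, d, hcd⟩ := hcop2
    have hcd' : (c : R) * (n2 : R) ^ p + d * p = 1 := by exact_mod_cast congrArg (Int.cast : ℤ → R) hcd
    refine ⟨-c * n1 ^ p, ?_⟩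
    have e : (ε' : R) - ((-c * n1 ^ p : ℤ) : R)
        = c * ((n1 : R) ^ p + ε' * (n2 : R) ^ p) + p * (ε' * d) := by
      push_cast
      linear_combination (-(ε' : R)) * hcd'
    rw [e]
    exact dvd_add (hd4.mul_left _) (dvd_mul_right _ _)
  obtain ⟨v, hv⟩ := hkummer ε' hkum
  refine ⟨ρ1, v * ρ2, z0', ε'', hρ1nd, ?_, hz0'nd, ?_, ?_⟩
  · exact fun h => hρ2nd ((Units.isUnit v).dvd_mul_left.1 h)
  · rw [isCoprime_mul_unit_left_right (Units.isUnit v)]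
    exact hρcop
  · rw [mul_pow, ← Units.val_pow_eq_pow_val, ← hv, hnew, hz0']

theorem no_solution_aux [IsPrincipalIdealRing R] (hp : p.Prime) (hp2 : p ≠ 2)
    (hζ : IsPrimitiveRoot ζ p) (hπ : Prime (ζ - 1))
    (hres : ∀ x : R, ∃ n : ℤ, (ζ - 1) ∣ x - n)
    (hkummer : ∀ u : Rˣ, (∃ n : ℤ, (p : R) ∣ (u : R) - n) → ∃ v : Rˣ, u = v ^ p) :
    ∀ m : ℕ, 1 ≤ m → ∀ (x y z0 : R) (ε : Rˣ), ¬ (ζ - 1) ∣ x → ¬ (ζ - 1) ∣ y → ¬ (ζ - 1) ∣ z0 →
      IsCoprime x y → x ^ p + y ^ p ≠ ε * ((ζ - 1) ^ m * z0) ^ p := by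
  intro m
  induction m with
  | zero => intro h; omega
  | succ k ih =>
    intro _ x y z0 ε hx hy hz0 hxy H
    have hdvd : (ζ - 1) ∣ x + y := by
      have h1 : (ζ - 1) ∣ ∏ j ∈ range p, (x + ζ ^ j * y) := by
        rw [prod_add_zeta_pow_mul hp hp2 hζ, H, mul_pow, ← pow_mul]
        exact Dvd.dvd.mul_left (Dvd.dvd.mul_right
          (dvd_pow_self _ (Nat.mul_ne_zero (Nat.succ_ne_zero k) hp.ne_zero)) _) _
      obtain ⟨j, -, hj⟩ := (Prime.dvd_finsetProd_iff hπ _).1 h1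
      have h2 : x + y = (x + ζ ^ j * y) - (ζ ^ j - 1) * y := by ring
      rw [h2]
      exact dvd_sub hj ((zeta_sub_one_dvd_pow_sub_one ζ j).mul_right _)
    obtain ⟨i, hi⟩ := exists_sq_dvd hp hζ hπ hres hy hdvd
    have hy' : ¬ (ζ - 1) ∣ ζ ^ i * y :=
      fun h => hy (((isUnit_zeta hp hζ).pow i).dvd_mul_left.1 h)
    have hxy' : IsCoprime x (ζ ^ i * y) :=
      (isCoprime_mul_unit_left_right ((isUnit_zeta hp hζ).pow i) x y).2 hxy
    have H' : x ^ p + (ζ ^ i * y) ^ p = ε * ((ζ - 1) ^ (k + 1) * z0) ^ p := by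
      rw [mul_pow, ← pow_mul, mul_comm i p, pow_mul, hζ.pow_eq_one, one_pow, one_mul, H]
    obtain ⟨h2, x', y', z0', ε', hx', hy'', hz0', hxy'', H''⟩ :=
      descent_core hp hp2 hζ hπ hres hkummer (Nat.succ_pos k) hy' hz0 hxy' hi H'
    exact ih (by omega) x' y' z0' ε' hx' hy'' hz0' hxy'' (by simpa using H'')

/-- Abstract form of Kummer's descent (case II). -/
theorem no_solution [IsPrincipalIdealRing R] (hp : p.Prime) (hp2 : p ≠ 2)
    (hζ : IsPrimitiveRoot ζ p) (hπ : Prime (ζ - 1))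
    (hres : ∀ x : R, ∃ n : ℤ, (ζ - 1) ∣ x - n)
    (hkummer : ∀ u : Rˣ, (∃ n : ℤ, (p : R) ∣ (u : R) - n) → ∃ v : Rˣ, u = v ^ p)
    (x y z : R) (ε : Rˣ) (hz : z ≠ 0) (hx : ¬ (ζ - 1) ∣ x) (hy : ¬ (ζ - 1) ∣ y)
    (hzdvd : (ζ - 1) ∣ z) (hxy : IsCoprime x y) : x ^ p + y ^ p ≠ ε * z ^ p := by
  have hfin : FiniteMultiplicity (ζ - 1) z := FiniteMultiplicity.of_not_isUnit hπ.not_isUnit hz
  obtain ⟨z0, hz0, hz0nd⟩ := hfin.exists_eq_pow_mul_and_not_dvd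
  have hm : 1 ≤ multiplicity (ζ - 1) z :=
    hfin.le_multiplicity_of_pow_dvd (by simpa using hzdvd)
  have := no_solution_aux hp hp2 hζ hπ hres hkummer _ hm x y z0 ε hx hy hz0nd hxy
  rwa [← hz0] at this

end abstract

section concrete

open NumberField

variable {p : ℕ} [hpf : Fact p.Prime] {K : Type*} [Field K] [NumberField K]
  [IsCyclotomicExtension {p} ℚ K]

lemma exists_int_sub_dvd {ζ : K} (hζ : IsPrimitiveRoot ζ p) (x : 𝓞 K) :
    ∃ n : ℤ, (hζ.toInteger - 1) ∣ x - n := by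
  obtain ⟨f, rfl⟩ := hζ.integralPowerBasis.exists_eq_aeval' x
  rw [hζ.integralPowerBasis_gen]
  refine ⟨f.eval 1, ?_⟩
  have h := Polynomial.sub_dvd_eval_sub hζ.toInteger 1 (f.map (algebraMap ℤ (𝓞 K)))
  rwa [Polynomial.eval_map_algebraMap, Polynomial.eval_one_map, eq_intCast] at h

/-- Case II of Fermat's Last Theorem for a prime `p` such that `ℤ[ζ_p]` is a PID and Kummer's
lemma holds. -/
theorem caseII (hp2 : p ≠ 2) (K : Type*) [Field K] [NumberField K]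
    [IsCyclotomicExtension {p} ℚ K] [IsPrincipalIdealRing (𝓞 K)]
    (hk : ∀ (u : (𝓞 K)ˣ) (n : ℤ), (p : 𝓞 K) ∣ (u : 𝓞 K) - (n : 𝓞 K) → ∃ v : (𝓞 K)ˣ, u = v ^ p)
    {a b c : ℤ} (hab : IsCoprime a b) (hc : c ≠ 0) (hpc : (p : ℤ) ∣ c) :
    a ^ p + b ^ p ≠ c ^ p := by
  intro H
  have hp : p.Prime := hpf.out
  have hpint : Prime (p : ℤ) := Nat.prime_iff_prime_int.1 hp
  have hζ := IsCyclotomicExtension.zeta_spec p ℚ K
  have hζ' := hζ.toInteger_isPrimitiveRoot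
  have hπ : Prime (hζ.toInteger - 1) := hζ.zeta_sub_one_prime'
  have hpa : ¬ (p : ℤ) ∣ a := by
    intro h
    have h1 : (p : ℤ) ∣ b ^ p := by
      have e : b ^ p = c ^ p - a ^ p := by rw [← H]; ring
      rw [e]
      exact dvd_sub (dvd_pow hpc hp.ne_zero) (dvd_pow h hp.ne_zero)
    have h2 := hpint.dvd_of_dvd_pow h1
    exact hpint.not_isUnit (hab.isUnit_of_dvd' h h2)
  have hpb : ¬ (p : ℤ) ∣ b := by
    intro h
    have h1 : (p : ℤ) ∣ a ^ p := by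
      have e : a ^ p = c ^ p - b ^ p := by rw [← H]; ring
      rw [e]
      exact dvd_sub (dvd_pow hpc hp.ne_zero) (dvd_pow h hp.ne_zero)
    have h2 := hpint.dvd_of_dvd_pow h1
    exact hpint.not_isUnit (hab.isUnit_of_dvd' h2 h)
  refine no_solution hp hp2 hζ' hπ (exists_int_sub_dvd hζ)
    (fun u ⟨n, hn⟩ => hk u n hn) (a : 𝓞 K) (b : 𝓞 K) (c : 𝓞 K) 1 (by exact_mod_cast hc)
    (fun h => hpa (int_dvd_of_zeta_sub_one_dvd hp hζ' hπ h))
    (fun h => hpb (int_dvd_of_zeta_sub_one_dvd hp hζ' hπ h))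
    (zeta_sub_one_dvd_int hp hζ' hpc) (IsCoprime.intCast hab) ?_
  rw [Units.val_one, one_mul]
  exact_mod_cast congrArg (Int.cast : ℤ → 𝓞 K) H

/-- Fermat's Last Theorem for a prime exponent `p`, given case I, principality of `ℤ[ζ_p]` and
Kummer's lemma. -/
theorem flt_of_caseI_of_pid_of_kummer (hp2 : p ≠ 2) (K : Type*) [Field K] [NumberField K]
    [IsCyclotomicExtension {p} ℚ K] [IsPrincipalIdealRing (𝓞 K)]
    (hk : ∀ (u : (𝓞 K)ˣ) (n : ℤ), (p : 𝓞 K) ∣ (u : 𝓞 K) - (n : 𝓞 K) → ∃ v : (𝓞 K)ˣ, u = v ^ p)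
    (hI : ∀ {a b c : ℤ}, IsCoprime a b → ¬ (p : ℤ) ∣ a * b * c → a ^ p + b ^ p ≠ c ^ p)
    {a b c : ℤ} (hab : IsCoprime a b) (ha : a ≠ 0) (hb : b ≠ 0) (hc : c ≠ 0) :
    a ^ p + b ^ p ≠ c ^ p := by
  intro H
  have hp : p.Prime := hpf.out
  have hodd : Odd p := hp.odd_of_ne_two hp2
  have hpint : Prime (p : ℤ) := Nat.prime_iff_prime_int.1 hp
  by_cases hdvd : (p : ℤ) ∣ a * b * c
  · rcases hpint.dvd_or_dvd hdvd with h | h
    · rcases hpint.dvd_or_dvd h with h | h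
      · -- p ∣ a : c ^ p + (-b) ^ p = a ^ p
        have hcb : IsCoprime c (-b) := by
          have h1 : IsCoprime (c ^ p) b := by
            rw [← H]
            have e : a ^ p + b ^ p = a ^ p + b * b ^ (p - 1) := by
              rw [← pow_succ', Nat.sub_add_cancel hp.one_le]
            rw [e]
            exact (IsCoprime.pow_left hab).add_mul_left_left _
          exact ((IsCoprime.pow_left_iff hp.pos).1 h1).neg_right
        exact caseII hp2 K hk hcb ha h (by rw [hodd.neg_pow, ← H]; ring)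
      · -- p ∣ b : c ^ p + (-a) ^ p = b ^ p
        have hca : IsCoprime c (-a) := by
          have h1 : IsCoprime (c ^ p) a := by
            rw [← H]
            have e : a ^ p + b ^ p = b ^ p + a * a ^ (p - 1) := by
              rw [← pow_succ', Nat.sub_add_cancel hp.one_le]; ring
            rw [e]
            exact (IsCoprime.pow_left hab.symm).add_mul_left_left _
          exact ((IsCoprime.pow_left_iff hp.pos).1 h1).neg_right
        exact caseII hp2 K hk hca hb h (by rw [hodd.neg_pow, ← H]; ring)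
    · exact caseII hp2 K hk hab hc h H
  · exact hI hab hdvd H

end concrete

end Fermat.Agent.S10
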