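import Fermat.Agent.S10.Helper44PID

set_option autoImplicit false

namespace Fermat.Agent.S10

open NumberField Ideal Module Polynomial

theorem h44_minpoly (p : ℕ) [hp : Fact p.Prime] (K : Type*) [Field K] [NumberField K]
    [IsCyclotomicExtension {p} ℚ K] :
    minpoly ℤ (IsCyclotomicExtension.zeta_spec p ℚ K).toInteger = cyclotomic p ℤ := by
  rw [cyclotomic_eq_minpoly (IsCyclotomicExtension.zeta_spec p ℚ K) hp.out.pos,
    ← RingOfIntegers.minpoly_coe]
  rfl

theorem h44_geom (p : ℕ) [hp : Fact p.Prime] (K : Type*) [Field K] [NumberField K]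
    [IsCyclotomicExtension {p} ℚ K] :
    ∑ i ∈ Finset.range p, (IsCyclotomicExtension.zeta_spec p ℚ K).toInteger ^ i = 0 :=
  (IsCyclotomicExtension.zeta_spec p ℚ K).toInteger_isPrimitiveRoot.geom_sum_eq_zero hp.out.one_lt

/-- A prime `(q, Q(θ))` of a prime cyclotomic ring of integers is principal, given explicit
cofactors. -/
theorem h44_principal_of_factor (p q : ℕ) [hp : Fact p.Prime] [hq : Fact q.Prime] (K : Type*)
    [Field K] [NumberField K] [IsCyclotomicExtension {p} ℚ K] (Q : ℤ[X])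
    (hQ : Q.map (Int.castRingHom (ZMod q)) ∈
      RingOfIntegers.monicFactorsMod (IsCyclotomicExtension.zeta_spec p ℚ K).toInteger q)
    (α β₁ β₂ u v : 𝓞 K)
    (h1 : (q : 𝓞 K) = α * β₁)
    (h2 : aeval (IsCyclotomicExtension.zeta_spec p ℚ K).toInteger Q = α * β₂)
    (h3 : α = q * u + aeval (IsCyclotomicExtension.zeta_spec p ℚ K).toInteger Q * v) :
    ∃ P ∈ primesOver (span {(q : ℤ)}) (𝓞 K), Submodule.IsPrincipal P := by
  have hexp : ¬ q ∣ RingOfIntegers.exponent (IsCyclotomicExtension.zeta_spec p ℚ K).toInteger := by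
    rw [RingOfIntegers.exponent_eq_one_iff.mpr
      (IsCyclotomicExtension.Rat.adjoin_singleton_eq_top (IsCyclotomicExtension.zeta_spec p ℚ K))]
    exact hq.out.not_dvd_one
  refine ⟨span {(q : 𝓞 K), aeval (IsCyclotomicExtension.zeta_spec p ℚ K).toInteger Q}, ?_, ?_⟩
  · rw [← NumberField.Ideal.primesOverSpanEquivMonicFactorsMod_symm_apply_eq_span hexp hQ]
    exact ((NumberField.Ideal.primesOverSpanEquivMonicFactorsMod hexp).symm ⟨_, hQ⟩).prop
  · have hspan : span {(q : 𝓞 K), aeval (IsCyclotomicExtension.zeta_spec p ℚ K).toInteger Q} =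
        span {α} := by
      apply le_antisymm
      · rw [span_le]
        intro x hx
        rcases hx with rfl | hx
        · exact mem_span_singleton.mpr ⟨β₁, h1⟩
        · rw [Set.mem_singleton_iff] at hx
          rw [hx]
          exact mem_span_singleton.mpr ⟨β₂, h2⟩
      · rw [span_singleton_le_iff_mem]
        rw [h3]
        exact Ideal.add_mem _ (Ideal.mul_mem_right _ _ (subset_span (by simp)))
          (Ideal.mul_mem_right _ _ (subset_span (by simp)))
    rw [hspan]
    exact ⟨⟨α, rfl⟩⟩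

/-- Linear-factor version: the prime `(q, θ - a)`. -/
theorem h44_principal_of_linear (p q : ℕ) [hp : Fact p.Prime] [hq : Fact q.Prime] (K : Type*)
    [Field K] [NumberField K] [IsCyclotomicExtension {p} ℚ K] (a : ℤ)
    (ha : (q : ℤ) ∣ ∑ i ∈ Finset.range p, a ^ i)
    (α β₁ β₂ u v : 𝓞 K)
    (h1 : (q : 𝓞 K) = α * β₁)
    (h2 : (IsCyclotomicExtension.zeta_spec p ℚ K).toInteger - (a : 𝓞 K) = α * β₂)
    (h3 : α = q * u + ((IsCyclotomicExtension.zeta_spec p ℚ K).toInteger - (a : 𝓞 K)) * v) :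
    ∃ P ∈ primesOver (span {(q : ℤ)}) (𝓞 K), Submodule.IsPrincipal P := by
  have haeval : aeval (IsCyclotomicExtension.zeta_spec p ℚ K).toInteger (X - C a : ℤ[X]) =
      (IsCyclotomicExtension.zeta_spec p ℚ K).toInteger - (a : 𝓞 K) := by
    simp
  refine h44_principal_of_factor p q K (X - C a) ?_ α β₁ β₂ u v h1 (haeval ▸ h2) (haeval ▸ h3)
  rw [Multiset.mem_toFinset, h44_minpoly,
    Polynomial.mem_normalizedFactors_iff (map_monic_ne_zero (cyclotomic.monic p ℤ))]
  have hmap : (X - C a : ℤ[X]).map (Int.castRingHom (ZMod q)) = X - C (a : ZMod q) := by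
    simp
  rw [hmap]
  refine ⟨irreducible_X_sub_C _, monic_X_sub_C _, ?_⟩
  rw [map_cyclotomic, dvd_iff_isRoot, IsRoot.def, cyclotomic_prime, eval_finsetSum]
  have h0 := (ZMod.intCast_zmod_eq_zero_iff_dvd _ q).mpr ha
  simpa using h0

end Fermat.Agent.S10
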