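import Fermat.Agent.S10.Helper44PID
import Fermat.Agent.S10.Helper44Gen

set_option autoImplicit false

namespace Fermat.Agent.S10

open NumberField Ideal Module Polynomial

theorem h44_prime_13_53 (K : Type*) [Field K] [NumberField K] [IsCyclotomicExtension {13} ℚ K] :
    ∃ P ∈ primesOver (span {((53 : ℕ) : ℤ)}) (𝓞 K), Submodule.IsPrincipal P := by
  have : Fact (Nat.Prime 13) := ⟨by norm_num⟩
  have : Fact (Nat.Prime 53) := ⟨by norm_num⟩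
  have hΦ := h44_geom 13 K
  simp only [Finset.sum_range_succ, Finset.sum_range_zero, zero_add, pow_zero, pow_one] at hΦ
  have key : ∀ θ : 𝓞 K, 1 + θ + θ ^ 2 + θ ^ 3 + θ ^ 4 + θ ^ 5 + θ ^ 6 + θ ^ 7 + θ ^ 8 + θ ^ 9 + θ ^ 10 + θ ^ 11 + θ ^ 12 = 0 →
      ((53 : ℕ) : 𝓞 K) = (1 - θ + θ ^ 3) * (25 + 10 * θ + 19 * θ ^ 2 + 3 * θ ^ 3 + 2 * θ ^ 4 - 8 * θ ^ 5 - 2 * θ ^ 6 + 5 * θ ^ 7 + 22 * θ ^ 8 + 33 * θ ^ 9 + 37 * θ ^ 10 + 24 * θ ^ 11) ∧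
      θ - (((16) : ℤ) : 𝓞 K) = (1 - θ + θ ^ 3) * (-8 - 3 * θ - 6 * θ ^ 2 - θ ^ 3 - θ ^ 4 + 2 * θ ^ 5 - 2 * θ ^ 7 - 7 * θ ^ 8 - 10 * θ ^ 9 - 11 * θ ^ 10 - 7 * θ ^ 11) ∧
      (1 - θ + θ ^ 3) = ((53 : ℕ) : 𝓞 K) * (77) + (θ - (((16) : ℤ) : 𝓞 K)) * (255 + 16 * θ + θ ^ 2) := by
    intro θ hθ
    refine ⟨?_, ?_, ?_⟩
    · push_cast
      linear_combination (28 - 13 * θ - 24 * θ ^ 2) * hθ
    · push_cast
      linear_combination (-8 + 4 * θ + 7 * θ ^ 2) * hθ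
    · push_cast
      ring
  obtain ⟨h1, h2, h3⟩ := key _ hΦ
  exact h44_principal_of_linear 13 53 K (16) (by decide) _ _ _ _ _ h1 h2 h3

theorem h44_prime_13_79 (K : Type*) [Field K] [NumberField K] [IsCyclotomicExtension {13} ℚ K] :
    ∃ P ∈ primesOver (span {((79 : ℕ) : ℤ)}) (𝓞 K), Submodule.IsPrincipal P := by
  have : Fact (Nat.Prime 13) := ⟨by norm_num⟩
  have : Fact (Nat.Prime 79) := ⟨by norm_num⟩
  have hΦ := h44_geom 13 K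
  simp only [Finset.sum_range_succ, Finset.sum_range_zero, zero_add, pow_zero, pow_one] at hΦ
  have key : ∀ θ : 𝓞 K, 1 + θ + θ ^ 2 + θ ^ 3 + θ ^ 4 + θ ^ 5 + θ ^ 6 + θ ^ 7 + θ ^ 8 + θ ^ 9 + θ ^ 10 + θ ^ 11 + θ ^ 12 = 0 →
      ((79 : ℕ) : 𝓞 K) = (1 - θ - θ ^ 4) * (62 + 63 * θ + 49 * θ ^ 2 + 8 * θ ^ 3 + 29 * θ ^ 4 + 51 * θ ^ 5 + 59 * θ ^ 6 + 26 * θ ^ 7 + 14 * θ ^ 8 + 24 * θ ^ 9 + 42 * θ ^ 10 + 27 * θ ^ 11) ∧
      θ - (((-17) : ℤ) : 𝓞 K) = (1 - θ - θ ^ 4) * (13 + 14 * θ + 11 * θ ^ 2 + 2 * θ ^ 3 + 6 * θ ^ 4 + 11 * θ ^ 5 + 13 * θ ^ 6 + 6 * θ ^ 7 + 3 * θ ^ 8 + 5 * θ ^ 9 + 9 * θ ^ 10 + 6 * θ ^ 11) ∧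
      (1 - θ - θ ^ 4) = ((79 : ℕ) : 𝓞 K) * (-1057) + (θ - (((-17) : ℤ) : 𝓞 K)) * (4912 - 289 * θ + 17 * θ ^ 2 - θ ^ 3) := by
    intro θ hθ
    refine ⟨?_, ?_, ?_⟩
    · push_cast
      linear_combination (17 - 18 * θ + 15 * θ ^ 2 + 27 * θ ^ 3) * hθ
    · push_cast
      linear_combination (4 - 4 * θ + 3 * θ ^ 2 + 6 * θ ^ 3) * hθ
    · push_cast
      ring
  obtain ⟨h1, h2, h3⟩ := key _ hΦ
  exact h44_principal_of_linear 13 79 K (-17) (by decide) _ _ _ _ _ h1 h2 h3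

theorem h44_prime_13_131 (K : Type*) [Field K] [NumberField K] [IsCyclotomicExtension {13} ℚ K] :
    ∃ P ∈ primesOver (span {((131 : ℕ) : ℤ)}) (𝓞 K), Submodule.IsPrincipal P := by
  have : Fact (Nat.Prime 13) := ⟨by norm_num⟩
  have : Fact (Nat.Prime 131) := ⟨by norm_num⟩
  have hΦ := h44_geom 13 K
  simp only [Finset.sum_range_succ, Finset.sum_range_zero, zero_add, pow_zero, pow_one] at hΦ
  have key : ∀ θ : 𝓞 K, 1 + θ + θ ^ 2 + θ ^ 3 + θ ^ 4 + θ ^ 5 + θ ^ 6 + θ ^ 7 + θ ^ 8 + θ ^ 9 + θ ^ 10 + θ ^ 11 + θ ^ 12 = 0 →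
      ((131 : ℕ) : 𝓞 K) = (1 - θ - θ ^ 3) * (111 + 78 * θ + 17 * θ ^ 2 + 67 * θ ^ 3 + 84 * θ ^ 4 + 40 * θ ^ 5 + 46 * θ ^ 6 + 69 * θ ^ 7 + 48 * θ ^ 8 + 33 * θ ^ 9 + 41 * θ ^ 10 + 28 * θ ^ 11) ∧
      θ - (((-51) : ℤ) : 𝓞 K) = (1 - θ - θ ^ 3) * (43 + 31 * θ + 7 * θ ^ 2 + 26 * θ ^ 3 + 33 * θ ^ 4 + 16 * θ ^ 5 + 18 * θ ^ 6 + 27 * θ ^ 7 + 19 * θ ^ 8 + 13 * θ ^ 9 + 16 * θ ^ 10 + 11 * θ ^ 11) ∧
      (1 - θ - θ ^ 3) = ((131 : ℕ) : 𝓞 K) * (1013) + (θ - (((-51) : ℤ) : 𝓞 K)) * (-2602 + 51 * θ - θ ^ 2) := by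
    intro θ hθ
    refine ⟨?_, ?_, ?_⟩
    · push_cast
      linear_combination (20 + 13 * θ + 28 * θ ^ 2) * hθ
    · push_cast
      linear_combination (8 + 5 * θ + 11 * θ ^ 2) * hθ
    · push_cast
      ring
  obtain ⟨h1, h2, h3⟩ := key _ hΦ
  exact h44_principal_of_linear 13 131 K (-51) (by decide) _ _ _ _ _ h1 h2 h3

theorem h44_prime_13_157 (K : Type*) [Field K] [NumberField K] [IsCyclotomicExtension {13} ℚ K] :
    ∃ P ∈ primesOver (span {((157 : ℕ) : ℤ)}) (𝓞 K), Submodule.IsPrincipal P := by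
  have : Fact (Nat.Prime 13) := ⟨by norm_num⟩
  have : Fact (Nat.Prime 157) := ⟨by norm_num⟩
  have hΦ := h44_geom 13 K
  simp only [Finset.sum_range_succ, Finset.sum_range_zero, zero_add, pow_zero, pow_one] at hΦ
  have key : ∀ θ : 𝓞 K, 1 + θ + θ ^ 2 + θ ^ 3 + θ ^ 4 + θ ^ 5 + θ ^ 6 + θ ^ 7 + θ ^ 8 + θ ^ 9 + θ ^ 10 + θ ^ 11 + θ ^ 12 = 0 →
      ((157 : ℕ) : 𝓞 K) = (1 - θ + θ ^ 2 + θ ^ 4) * (89 + 86 * θ + 42 * θ ^ 2 + 77 * θ ^ 3 + 67 * θ ^ 4 + 25 * θ ^ 5 + 37 * θ ^ 6 + 56 * θ ^ 7 + 73 * θ ^ 8 + 113 * θ ^ 9 + 124 * θ ^ 10 + 76 * θ ^ 11) ∧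
      θ - (((75) : ℤ) : 𝓞 K) = (1 - θ + θ ^ 2 + θ ^ 4) * (-43 - 41 * θ - 20 * θ ^ 2 - 37 * θ ^ 3 - 32 * θ ^ 4 - 12 * θ ^ 5 - 18 * θ ^ 6 - 27 * θ ^ 7 - 35 * θ ^ 8 - 54 * θ ^ 9 - 59 * θ ^ 10 - 36 * θ ^ 11) ∧
      (1 - θ + θ ^ 2 + θ ^ 4) = ((157 : ℕ) : 𝓞 K) * (201568) + (θ - (((75) : ℤ) : 𝓞 K)) * (421949 + 5626 * θ + 75 * θ ^ 2 + θ ^ 3) := by
    intro θ hθ
    refine ⟨?_, ?_, ?_⟩
    · push_cast
      linear_combination (68 - 65 * θ - 48 * θ ^ 2 - 76 * θ ^ 3) * hθ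
    · push_cast
      linear_combination (-32 + 31 * θ + 23 * θ ^ 2 + 36 * θ ^ 3) * hθ
    · push_cast
      ring
  obtain ⟨h1, h2, h3⟩ := key _ hΦ
  exact h44_principal_of_linear 13 157 K (75) (by decide) _ _ _ _ _ h1 h2 h3

theorem h44_cubic_noroot : ∀ y : ZMod 3, y ^ 3 - y - 1 ≠ 0 := by decide

theorem h44_prime_13_3 (K : Type*) [Field K] [NumberField K] [IsCyclotomicExtension {13} ℚ K] :
    ∃ P ∈ primesOver (span {((3 : ℕ) : ℤ)}) (𝓞 K), Submodule.IsPrincipal P := by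
  have : Fact (Nat.Prime 13) := ⟨by norm_num⟩
  have : Fact (Nat.Prime 3) := ⟨by norm_num⟩
  have hΦ := h44_geom 13 K
  simp only [Finset.sum_range_succ, Finset.sum_range_zero, zero_add, pow_zero, pow_one] at hΦ
  have key : ∀ θ : 𝓞 K, 1 + θ + θ ^ 2 + θ ^ 3 + θ ^ 4 + θ ^ 5 + θ ^ 6 + θ ^ 7 + θ ^ 8 + θ ^ 9 +
      θ ^ 10 + θ ^ 11 + θ ^ 12 = 0 →
      ((3 : ℕ) : 𝓞 K) = (1 + θ - θ ^ 3) *
        (-1 - θ ^ 2 - θ ^ 3 - 2 * θ ^ 5 - θ ^ 7 - 2 * θ ^ 8 + θ ^ 9 - 3 * θ ^ 10) := by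
    intro θ hθ
    push_cast
    linear_combination (4 - 3 * θ) * hθ
  have haeval : aeval (IsCyclotomicExtension.zeta_spec 13 ℚ K).toInteger (X ^ 3 - X - 1 : ℤ[X]) =
      (IsCyclotomicExtension.zeta_spec 13 ℚ K).toInteger ^ 3 -
        (IsCyclotomicExtension.zeta_spec 13 ℚ K).toInteger - 1 := by
    simp
  refine h44_principal_of_factor 13 3 K (X ^ 3 - X - 1) ?_ _ _ (-1) 0 (-1) (key _ hΦ) ?_ ?_
  · rw [Multiset.mem_toFinset, h44_minpoly,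
      Polynomial.mem_normalizedFactors_iff (map_monic_ne_zero (cyclotomic.monic 13 ℤ))]
    have hmap : (X ^ 3 - X - 1 : ℤ[X]).map (Int.castRingHom (ZMod 3)) = X ^ 3 - X - 1 := by
      simp
    rw [hmap]
    have hrw : (X ^ 3 - X - 1 : (ZMod 3)[X]) = X ^ 3 - (X + C 1) := by
      rw [C_1]; ring
    have hdeg : ((X + C 1 : (ZMod 3)[X])).degree < ((3 : ℕ) : WithBot ℕ) := by
      rw [degree_X_add_C]
      exact_mod_cast (by norm_num : (1 : ℕ) < 3)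
    have hmonic : (X ^ 3 - X - 1 : (ZMod 3)[X]).Monic := by
      rw [hrw]
      exact monic_X_pow_sub hdeg
    have hnat : (X ^ 3 - X - 1 : (ZMod 3)[X]).natDegree = 3 := by
      rw [hrw, natDegree_sub_eq_left_of_natDegree_lt (by rw [natDegree_X_pow, natDegree_X_add_C]; norm_num),
        natDegree_X_pow]
    refine ⟨?_, hmonic, ?_⟩
    · rw [Polynomial.Monic.irreducible_iff_roots_eq_zero_of_degree_le_three hmonic
        (by omega) (by omega)]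
      apply Multiset.eq_zero_of_forall_notMem
      intro x hx
      rw [mem_roots hmonic.ne_zero, IsRoot.def] at hx
      simp only [eval_sub, eval_pow, eval_X, eval_one] at hx
      exact h44_cubic_noroot x hx
    · have hcyc : cyclotomic 13 ℤ = (X ^ 3 - X - 1) *
          (20 + 15 * X + 11 * X ^ 2 + 8 * X ^ 3 + 6 * X ^ 4 + 4 * X ^ 5 + 3 * X ^ 6 + 2 * X ^ 7 +
            X ^ 8 + X ^ 9) + 3 * (7 + 12 * X + 9 * X ^ 2) := by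
        rw [cyclotomic_prime]
        simp only [Finset.sum_range_succ, Finset.sum_range_zero, zero_add, pow_zero, pow_one]
        ring
      rw [hcyc]
      refine ⟨(20 + 15 * X + 11 * X ^ 2 + 8 * X ^ 3 + 6 * X ^ 4 + 4 * X ^ 5 + 3 * X ^ 6 +
        2 * X ^ 7 + X ^ 8 + X ^ 9 : ℤ[X]).map (Int.castRingHom (ZMod 3)), ?_⟩
      have h3 : ((3 : ℤ[X])).map (Int.castRingHom (ZMod 3)) = 0 := by
        rw [Polynomial.map_ofNat]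
        exact CharP.ofNat_eq_zero _ 3
      rw [Polynomial.map_add, Polynomial.map_mul, Polynomial.map_mul, hmap, h3, zero_mul, add_zero]
  · rw [haeval]; ring
  · rw [haeval]; ring

set_option maxRecDepth 100000 in
theorem h44_arith13 : ∀ q ∈ Finset.Icc 1 307, q.Prime → q ≠ 13 →
    (q ∈ ({3, 53, 79, 131, 157} : Finset ℕ)) ∨
      ∀ d ∈ Nat.divisors (13 - 1), q ^ d % 13 = 1 → 307 < q ^ d := by
  decide

/-- The ring of integers of the 13-th cyclotomic field is a PID. -/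
theorem pid_thirteen (K : Type*) [Field K] [NumberField K] [IsCyclotomicExtension {13} ℚ K] :
    IsPrincipalIdealRing (𝓞 K) := by
  have : Fact (Nat.Prime 13) := ⟨by norm_num⟩
  apply h44_pid_of_bound 13 K 307
  · rw [h44_minkowski_eq 13 K]
    have hpi : (4 / Real.pi) ≤ 4 / 3.14 := by
      have := Real.pi_gt_d2
      gcongr
    have hsq : √((13 : ℝ) ^ (13 - 2)) < 1338720 := by
      rw [Real.sqrt_lt' (by norm_num)]
      norm_num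
    calc (4 / Real.pi) ^ ((13 - 1) / 2) *
          ((Nat.factorial (13 - 1)) / ((13 - 1 : ℕ) : ℝ) ^ (13 - 1) * √(((13 : ℕ) : ℝ) ^ (13 - 2)))
        ≤ (4 / 3.14) ^ ((13 - 1) / 2) *
          ((Nat.factorial (13 - 1)) / ((13 - 1 : ℕ) : ℝ) ^ (13 - 1) * 1338720) := by
          push_cast
          gcongr
      _ < ((307 : ℕ) : ℝ) + 1 := by
          norm_num [Nat.factorial]
  · intro q hq hqprime hq13
    rcases h44_arith13 q hq hqprime hq13 with hmem | h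
    · right
      simp only [Finset.mem_insert, Finset.mem_singleton] at hmem
      rcases hmem with rfl | rfl | rfl | rfl | rfl
      · exact h44_prime_13_3 K
      · exact h44_prime_13_53 K
      · exact h44_prime_13_79 K
      · exact h44_prime_13_131 K
      · exact h44_prime_13_157 K
    · exact Or.inl h

end Fermat.Agent.S10
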