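import Mathlib

set_option autoImplicit false

namespace Fermat.Agent.S10

open NumberField Ideal Module

/-- Minkowski bound criterion for prime cyclotomic fields, with an explicit numerical bound `B`
and a purely arithmetic side condition. -/
theorem h44_pid_of_bound (p : ℕ) [hp : Fact p.Prime] (K : Type*) [Field K] [NumberField K]
    [IsCyclotomicExtension {p} ℚ K] (B : ℕ)
    (hB : (4 / Real.pi) ^ InfinitePlace.nrComplexPlaces K *
      ((Nat.factorial (finrank ℚ K)) / (finrank ℚ K) ^ (finrank ℚ K) * √|(discr K : ℝ)|) < B + 1)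
    (h : ∀ q ∈ Finset.Icc 1 B, q.Prime → q ≠ p →
      (∀ d ∈ Nat.divisors (p - 1), q ^ d % p = 1 → B < q ^ d) ∨
      ∃ P ∈ primesOver (span {(q : ℤ)}) (𝓞 K), Submodule.IsPrincipal P) :
    IsPrincipalIdealRing (𝓞 K) := by
  have hgal : IsGalois ℚ K := IsCyclotomicExtension.isGalois {p} ℚ K
  have hfloor : ⌊(4 / Real.pi) ^ InfinitePlace.nrComplexPlaces K *
      ((Nat.factorial (finrank ℚ K)) / (finrank ℚ K) ^ (finrank ℚ K) * √|(discr K : ℝ)|)⌋₊ ≤ B := by
    apply Nat.le_of_lt_succ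
    rw [Nat.floor_lt (by positivity)]
    exact_mod_cast hB
  apply RingOfIntegers.isPrincipalIdealRing_of_isPrincipal_of_lt_or_isPrincipal_of_mem_primesOver_of_mem_Icc
  intro q hq hqprime
  have hqB : q ∈ Finset.Icc 1 B := by
    rw [Finset.mem_Icc] at hq ⊢
    exact ⟨hq.1, hq.2.trans hfloor⟩
  have : Fact q.Prime := ⟨hqprime⟩
  by_cases hqp : q = p
  · subst hqp
    obtain ⟨⟨P, hP1, hP2⟩⟩ := (span {(q : ℤ)}).nonempty_primesOver (S := 𝓞 K)
    refine ⟨P, ⟨hP1, hP2⟩, Or.inr ?_⟩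
    rw [IsCyclotomicExtension.Rat.eq_span_zeta_sub_one_of_liesOver' q K
      (IsCyclotomicExtension.zeta_spec q ℚ K) P]
    exact ⟨⟨_, rfl⟩⟩
  · rcases h q hqB hqprime hqp with h1 | ⟨P, hP, hprinc⟩
    · obtain ⟨⟨P, hP1, hP2⟩⟩ := (span {(q : ℤ)}).nonempty_primesOver (S := 𝓞 K)
      refine ⟨P, ⟨hP1, hP2⟩, Or.inl ?_⟩
      have hdvd : ¬ q ∣ p := by
        intro hd
        exact hqp ((Nat.prime_dvd_prime_iff_eq hqprime hp.out).mp hd)
      rw [IsCyclotomicExtension.Rat.inertiaDeg_eq_of_not_dvd q K P hdvd]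
      refine lt_of_le_of_lt hfloor (h1 _ ?_ ?_)
      · have hq0 : (q : ZMod p) ≠ 0 := by
          intro h0
          rw [ZMod.natCast_eq_zero_iff] at h0
          exact hqp ((Nat.prime_dvd_prime_iff_eq hp.out hqprime).mp h0).symm
        rw [Nat.mem_divisors]
        exact ⟨ZMod.orderOf_dvd_card_sub_one hq0, (Nat.sub_pos_of_lt hp.out.one_lt).ne'⟩
      · have h1' : ((q ^ orderOf (q : ZMod p) : ℕ) : ZMod p) = ((1 : ℕ) : ZMod p) := by
          push_cast
          exact pow_orderOf_eq_one _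
        rw [ZMod.natCast_eq_natCast_iff'] at h1'
        rw [h1', Nat.one_mod_eq_one.mpr hp.out.one_lt.ne']
    · exact ⟨P, hP, Or.inr hprinc⟩

/-- The Minkowski bound of a prime cyclotomic field, explicitly. -/
theorem h44_minkowski_eq (p : ℕ) [hp : Fact p.Prime] (K : Type*) [Field K] [NumberField K]
    [IsCyclotomicExtension {p} ℚ K] :
    (4 / Real.pi) ^ InfinitePlace.nrComplexPlaces K *
      ((Nat.factorial (finrank ℚ K)) / (finrank ℚ K) ^ (finrank ℚ K) * √|(discr K : ℝ)|) =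
    (4 / Real.pi) ^ ((p - 1) / 2) *
      ((Nat.factorial (p - 1)) / ((p - 1 : ℕ) : ℝ) ^ (p - 1) * √((p : ℝ) ^ (p - 2))) := by
  rw [IsCyclotomicExtension.Rat.discr_prime p K, IsCyclotomicExtension.Rat.finrank (k := p) K,
    IsCyclotomicExtension.Rat.nrComplexPlaces_eq_totient_div_two p, Nat.totient_prime hp.out]
  congr 3
  push_cast
  rw [abs_mul, abs_pow, abs_pow, abs_neg, abs_one, one_pow, one_mul, Nat.abs_cast]

theorem pid_seven (K : Type*) [Field K] [NumberField K] [IsCyclotomicExtension {7} ℚ K] :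
    IsPrincipalIdealRing (𝓞 K) := by
  have : Fact (Nat.Prime 7) := ⟨by norm_num⟩
  apply h44_pid_of_bound 7 K 4
  · rw [h44_minkowski_eq 7 K]
    have hpi : (4 / Real.pi) ≤ 4 / 3 := by
      have := Real.pi_gt_three
      gcongr
    have hsq : √((7 : ℝ) ^ (7 - 2)) < 130 := by
      rw [Real.sqrt_lt' (by norm_num)]
      norm_num
    calc (4 / Real.pi) ^ ((7 - 1) / 2) *
          ((Nat.factorial (7 - 1)) / ((7 - 1 : ℕ) : ℝ) ^ (7 - 1) * √(((7 : ℕ) : ℝ) ^ (7 - 2)))
        ≤ (4 / 3) ^ ((7 - 1) / 2) *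
          ((Nat.factorial (7 - 1)) / ((7 - 1 : ℕ) : ℝ) ^ (7 - 1) * 130) := by
          push_cast
          gcongr
      _ < ((4 : ℕ) : ℝ) + 1 := by
          norm_num [Nat.factorial]
  · have key : ∀ q ∈ Finset.Icc 1 4, q.Prime → q ≠ 7 →
        ∀ d ∈ Nat.divisors (7 - 1), q ^ d % 7 = 1 → 4 < q ^ d := by decide
    intro q hq hqprime hq7
    exact Or.inl (key q hq hqprime hq7)

end Fermat.Agent.S10
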