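import Fermat.Agent.S10.KummerGeneric

/-!
# Kummer's lemma for p = 5, 7, 11, 13 (helper73, S10/M4 finite checks)
-/

namespace Fermat.Agent.S10

open NumberField

/-- table lookup with default `0` -/
def h73_tab (t : List (List ℕ)) (k i : ℕ) : ℕ := (t.getD k []).getD i 0

def h73_l5 : List (List ℕ) := [[3, 1, 2], [1, 3, 0]]
def h73_m5 : List (List ℕ) := [[1, 3, 0], [3, 1, 0]]

theorem h73_prime_five : Nat.Prime 5 := by norm_num

theorem h73_check1_five : ∀ k < (5 - 1) / 2, ∀ i < 5 - 2,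
    (∑ j ∈ Finset.range (i + 1), (k + 2).choose (j + 1) * h73_tab h73_l5 k (i - j)) % 5
      = ((i + 1) * (k + 2).choose (i + 2)) % 5 := by
  decide

theorem h73_check2_five : ∀ k < (5 - 1) / 2, ∀ k0 < (5 - 1) / 2,
    (∑ i ∈ Finset.range (5 - 2), h73_tab h73_m5 k0 i * h73_tab h73_l5 k i) % 5
      = if k = k0 then 1 else 0 := by
  decide

theorem kummer_five (K : Type*) [Field K] [NumberField K] [IsCyclotomicExtension {5} ℚ K]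
    (u : (𝓞 K)ˣ) (n : ℤ) (h : (5 : 𝓞 K) ∣ (u : 𝓞 K) - (n : 𝓞 K)) : ∃ v : (𝓞 K)ˣ, u = v ^ 5 := by
  have : Fact (Nat.Prime 5) := ⟨h73_prime_five⟩
  exact kummer_of_tables (p := 5) (by decide) (h73_tab h73_l5) (h73_tab h73_m5)
    h73_check1_five h73_check2_five K u n (by exact_mod_cast h)

def h73_l7 : List (List ℕ) := [[4, 5, 1, 3, 2], [1, 2, 0, 4, 3], [5, 5, 4, 0, 0]]
def h73_m7 : List (List ℕ) := [[3, 4, 0, 6, 0], [3, 4, 0, 1, 0], [0, 3, 0, 2, 0]]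

theorem h73_prime_seven : Nat.Prime 7 := by norm_num

theorem h73_check1_seven : ∀ k < (7 - 1) / 2, ∀ i < 7 - 2,
    (∑ j ∈ Finset.range (i + 1), (k + 2).choose (j + 1) * h73_tab h73_l7 k (i - j)) % 7
      = ((i + 1) * (k + 2).choose (i + 2)) % 7 := by
  decide

theorem h73_check2_seven : ∀ k < (7 - 1) / 2, ∀ k0 < (7 - 1) / 2,
    (∑ i ∈ Finset.range (7 - 2), h73_tab h73_m7 k0 i * h73_tab h73_l7 k i) % 7
      = if k = k0 then 1 else 0 := by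
  decide

theorem kummer_seven (K : Type*) [Field K] [NumberField K] [IsCyclotomicExtension {7} ℚ K]
    (u : (𝓞 K)ˣ) (n : ℤ) (h : (7 : 𝓞 K) ∣ (u : 𝓞 K) - (n : 𝓞 K)) : ∃ v : (𝓞 K)ˣ, u = v ^ 7 := by
  have : Fact (Nat.Prime 7) := ⟨h73_prime_seven⟩
  exact kummer_of_tables (p := 7) (by decide) (h73_tab h73_l7) (h73_tab h73_m7)
    h73_check1_seven h73_check2_seven K u n (by exact_mod_cast h)

def h73_l11 : List (List ℕ) := [[6, 8, 7, 2, 10, 6, 8, 7, 2], [1, 7, 0, 5, 6, 7, 2, 3, 0], [7, 8, 1, 8, 7, 6, 4, 0, 0], [2, 0, 10, 3, 0, 6, 5, 6, 5], [8, 5, 5, 8, 6, 0, 0, 0, 0]]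
def h73_m11 : List (List ℕ) := [[6, 8, 0, 0, 0, 8, 0, 1, 0], [7, 7, 0, 1, 0, 5, 0, 5, 0], [0, 4, 0, 3, 0, 0, 0, 4, 0], [6, 0, 0, 5, 0, 1, 0, 2, 0], [7, 2, 0, 7, 0, 0, 0, 7, 0]]

theorem h73_prime_eleven : Nat.Prime 11 := by norm_num

theorem h73_check1_eleven : ∀ k < (11 - 1) / 2, ∀ i < 11 - 2,
    (∑ j ∈ Finset.range (i + 1), (k + 2).choose (j + 1) * h73_tab h73_l11 k (i - j)) % 11
      = ((i + 1) * (k + 2).choose (i + 2)) % 11 := by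
  decide

theorem h73_check2_eleven : ∀ k < (11 - 1) / 2, ∀ k0 < (11 - 1) / 2,
    (∑ i ∈ Finset.range (11 - 2), h73_tab h73_m11 k0 i * h73_tab h73_l11 k i) % 11
      = if k = k0 then 1 else 0 := by
  decide

theorem kummer_eleven (K : Type*) [Field K] [NumberField K] [IsCyclotomicExtension {11} ℚ K]
    (u : (𝓞 K)ˣ) (n : ℤ) (h : (11 : 𝓞 K) ∣ (u : 𝓞 K) - (n : 𝓞 K)) : ∃ v : (𝓞 K)ˣ, u = v ^ 11 := by
  have : Fact (Nat.Prime 11) := ⟨h73_prime_eleven⟩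
  exact kummer_of_tables (p := 11) (by decide) (h73_tab h73_l11) (h73_tab h73_m11)
    h73_check1_eleven h73_check2_eleven K u n (by exact_mod_cast h)

def h73_l13 : List (List ℕ) := [[7, 3, 5, 4, 11, 1, 6, 10, 8, 9, 2], [1, 4, 0, 3, 10, 2, 12, 9, 0, 10, 3], [8, 3, 11, 11, 1, 1, 11, 5, 4, 9, 4], [2, 0, 12, 6, 0, 2, 11, 4, 7, 3, 5], [9, 8, 3, 8, 9, 1, 6, 7, 6, 7, 6], [3, 1, 10, 1, 3, 7, 0, 0, 0, 0, 0]]
def h73_m13 : List (List ℕ) := [[10, 2, 0, 10, 0, 7, 0, 11, 0, 6, 0], [12, 12, 0, 2, 0, 4, 0, 0, 0, 7, 0], [7, 11, 0, 9, 0, 9, 0, 6, 0, 11, 0], [4, 2, 0, 2, 0, 7, 0, 1, 0, 5, 0], [2, 8, 0, 9, 0, 6, 0, 0, 0, 7, 0], [2, 6, 0, 6, 0, 5, 0, 1, 0, 8, 0]]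

theorem h73_prime_thirteen : Nat.Prime 13 := by norm_num

theorem h73_check1_thirteen : ∀ k < (13 - 1) / 2, ∀ i < 13 - 2,
    (∑ j ∈ Finset.range (i + 1), (k + 2).choose (j + 1) * h73_tab h73_l13 k (i - j)) % 13
      = ((i + 1) * (k + 2).choose (i + 2)) % 13 := by
  decide

theorem h73_check2_thirteen : ∀ k < (13 - 1) / 2, ∀ k0 < (13 - 1) / 2,
    (∑ i ∈ Finset.range (13 - 2), h73_tab h73_m13 k0 i * h73_tab h73_l13 k i) % 13
      = if k = k0 then 1 else 0 := by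
  decide

theorem kummer_thirteen (K : Type*) [Field K] [NumberField K] [IsCyclotomicExtension {13} ℚ K]
    (u : (𝓞 K)ˣ) (n : ℤ) (h : (13 : 𝓞 K) ∣ (u : 𝓞 K) - (n : 𝓞 K)) : ∃ v : (𝓞 K)ˣ, u = v ^ 13 := by
  have : Fact (Nat.Prime 13) := ⟨h73_prime_thirteen⟩
  exact kummer_of_tables (p := 13) (by decide) (h73_tab h73_l13) (h73_tab h73_m13)
    h73_check1_thirteen h73_check2_thirteen K u n (by exact_mod_cast h)

end Fermat.Agent.S10
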