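import Mathlib

set_option autoImplicit false

/-!
Helper14: abstract Kummer descent for the second case of Fermat's Last Theorem
for a prime exponent `p`, in a principal ideal domain `R` containing a primitive
`p`-th root of unity `ζ` with the usual arithmetic properties of `ℤ[ζ]`.
-/

namespace Fermat.Agent.S10

open Polynomial Finset

/-- The arithmetic input for the descent. -/
structure H14Setup (R : Type*) [CommRing R] (p : ℕ) (ζ : R) : Prop where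
  prime_p : p.Prime
  ne_two : p ≠ 2
  prim : IsPrimitiveRoot ζ p
  prime_lam : Prime (ζ - 1)
  assoc : Associated ((ζ - 1) ^ (p - 1)) (p : R)
  int_mod : ∀ x : R, ∃ n : ℤ, ζ - 1 ∣ x - (n : R)
  dvd_int : ∀ n : ℤ, ζ - 1 ∣ (n : R) → (p : ℤ) ∣ n
  pow_mod : ∀ x : R, ∃ n : ℤ, (p : R) ∣ x ^ p - (n : R)
  kummer : ∀ (u : Rˣ) (n : ℤ), (p : R) ∣ (u : R) - (n : R) → ∃ v : Rˣ, u = v ^ p

section

variable {R : Type*} [CommRing R] [IsDomain R]

theorem h14_pow_add_pow_eq_prod {p : ℕ} (hp : p.Prime) (hp2 : p ≠ 2) {ζ : R}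
    (hζ : IsPrimitiveRoot ζ p) (x y : R) :
    x ^ p + y ^ p = ∏ i ∈ range p, (x + ζ ^ i * y) := by
  have hodd : Odd p := hp.odd_of_ne_two hp2
  have h := X_pow_sub_C_eq_prod hζ hp.pos (show (-y) ^ p = -(y ^ p) from hodd.neg_pow y)
  have h2 := congrArg (Polynomial.eval x) h
  simp only [eval_sub, eval_pow, eval_X, eval_C, eval_prod] at h2
  rw [sub_neg_eq_add] at h2
  rw [h2]
  refine prod_congr rfl fun i _ => ?_
  ring

variable {p : ℕ} {ζ : R}

omit [IsDomain R] in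
theorem h14_lam_dvd_pow_sub_one (i : ℕ) : ζ - 1 ∣ ζ ^ i - 1 := by
  simpa using sub_dvd_pow_sub_pow ζ 1 i

omit [IsDomain R] in
theorem h14_lam_dvd_p (S : H14Setup R p ζ) : ζ - 1 ∣ (p : R) := by
  have h1 : ζ - 1 ∣ (ζ - 1) ^ (p - 1) :=
    dvd_pow_self _ (by have := S.prime_p.two_le; omega)
  exact h1.trans S.assoc.dvd

omit [IsDomain R] in
theorem h14_lam_dvd_geom_sub (i : ℕ) : ζ - 1 ∣ (∑ k ∈ range i, ζ ^ k) - (i : R) := by
  have : (∑ k ∈ range i, ζ ^ k) - (i : R) = ∑ k ∈ range i, (ζ ^ k - 1) := by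
    simp [Finset.sum_sub_distrib]
  rw [this]
  exact Finset.dvd_sum fun k _ => h14_lam_dvd_pow_sub_one k

omit [IsDomain R] in
theorem h14_not_dvd_y (S : H14Setup R p ζ) {x y : R} (hxy : IsCoprime x y)
    (H : ζ - 1 ∣ x ^ p + y ^ p) : ¬ ζ - 1 ∣ y := by
  intro hy
  have hx : ζ - 1 ∣ x := by
    have h1 : ζ - 1 ∣ x ^ p := by
      have := dvd_sub H (dvd_pow hy S.prime_p.ne_zero)
      simpa using this
    exact S.prime_lam.dvd_of_dvd_pow h1
  exact S.prime_lam.not_isUnit (hxy.isUnit_of_dvd' hx hy)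

theorem h14_lam_dvd_all (S : H14Setup R p ζ) {x y : R}
    (H : ζ - 1 ∣ x ^ p + y ^ p) (i : ℕ) : ζ - 1 ∣ x + ζ ^ i * y := by
  rw [h14_pow_add_pow_eq_prod S.prime_p S.ne_two S.prim] at H
  obtain ⟨j, -, hj⟩ := (S.prime_lam.dvd_finsetProd_iff _).1 H
  have h1 : x + ζ ^ i * y = (x + ζ ^ j * y) + ((ζ ^ i - 1) - (ζ ^ j - 1)) * y := by ring
  rw [h1]
  exact dvd_add hj (Dvd.dvd.mul_right
    (dvd_sub (h14_lam_dvd_pow_sub_one i) (h14_lam_dvd_pow_sub_one j)) _)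

theorem h14_exists_sq_dvd (S : H14Setup R p ζ) {x y : R} (hxy : IsCoprime x y)
    (H : ζ - 1 ∣ x ^ p + y ^ p) : ∃ i : ℕ, (ζ - 1) ^ 2 ∣ x + ζ ^ i * y := by
  have hy := h14_not_dvd_y S hxy H
  obtain ⟨w, hw⟩ := h14_lam_dvd_all S H 0
  obtain ⟨a, ha⟩ := S.int_mod w
  obtain ⟨b, hb⟩ := S.int_mod y
  have hlp := h14_lam_dvd_p S
  have hpb : ¬ (p : ℤ) ∣ b := by
    intro hpb
    apply hy
    have h1 : ζ - 1 ∣ (b : R) := by
      obtain ⟨c, hc⟩ := hpb
      exact hlp.trans ⟨(c : R), by rw [hc]; push_cast; ring⟩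
    have := dvd_add hb h1
    simpa using this
  have : Fact p.Prime := ⟨S.prime_p⟩
  have hb0 : (b : ZMod p) ≠ 0 := by
    rwa [Ne, ZMod.intCast_zmod_eq_zero_iff_dvd]
  let i : ℕ := (-(a : ZMod p) / (b : ZMod p)).val
  have hi : (p : ℤ) ∣ a + i * b := by
    rw [← ZMod.intCast_zmod_eq_zero_iff_dvd]
    push_cast
    rw [ZMod.natCast_zmod_val]
    field_simp
    ring
  refine ⟨i, ?_⟩
  have h2 : ζ - 1 ∣ w + (∑ k ∈ range i, ζ ^ k) * y := by
    have e : w + (∑ k ∈ range i, ζ ^ k) * y = (w - a) + ((∑ k ∈ range i, ζ ^ k) - (i : R)) * y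
        + (i : R) * (y - b) + ((a + i * b : ℤ) : R) := by push_cast; ring
    rw [e]
    refine dvd_add (dvd_add (dvd_add ha ((h14_lam_dvd_geom_sub i).mul_right _))
      (hb.mul_left _)) ?_
    obtain ⟨c, hc⟩ := hi
    exact hlp.trans ⟨(c : R), by rw [hc]; push_cast; ring⟩
  obtain ⟨t, ht⟩ := h2
  refine ⟨t, ?_⟩
  have e : x + ζ ^ i * y = (x + ζ ^ 0 * y) + (ζ ^ i - 1) * y := by ring
  rw [e, hw, ← mul_geom_sum]
  linear_combination (ζ - 1) * ht

theorem h14_step_normalized [IsPrincipalIdealRing R] (S : H14Setup R p ζ) (m' : ℕ)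
    {x y z : R} {ε : Rˣ} (hxy : IsCoprime x y) (hz : ¬ ζ - 1 ∣ z)
    (hsq : (ζ - 1) ^ 2 ∣ x + y)
    (H : x ^ p + y ^ p = ε * (ζ - 1) ^ (p * (m' + 1)) * z ^ p) :
    1 ≤ m' ∧ ∃ x' y' z' : R, ∃ ε' : Rˣ, IsCoprime x' y' ∧ ¬ ζ - 1 ∣ z' ∧
      x' ^ p + y' ^ p = ε' * (ζ - 1) ^ (p * m') * z' ^ p := by
  have hp := S.prime_p
  have hp3 : 3 ≤ p := by have := hp.two_le; have := S.ne_two; omega
  have hlam := S.prime_lam
  have hlam0 : ζ - 1 ≠ 0 := hlam.ne_zero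
  have hdvd : ζ - 1 ∣ x ^ p + y ^ p := by
    rw [H]
    exact Dvd.dvd.mul_right (Dvd.dvd.mul_left (dvd_pow_self _ (by positivity)) _) _
  have hy := h14_not_dvd_y S hxy hdvd
  -- the factors with `0 < j < p`
  have L4 : ∀ j : ℕ, ∃ u : R,
      (0 < j → j < p → x + ζ ^ j * y = (ζ - 1) * u ∧ ¬ ζ - 1 ∣ u) := by
    intro j
    by_cases hj : 0 < j ∧ j < p
    · obtain ⟨t, ht⟩ := hsq
      refine ⟨(ζ - 1) * t + (∑ k ∈ range j, ζ ^ k) * y, fun _ _ => ⟨?_, ?_⟩⟩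
      · have e : x + ζ ^ j * y = (x + y) + (ζ ^ j - 1) * y := by ring
        rw [e, ht, ← mul_geom_sum]; ring
      · intro hd
        have h1 : ζ - 1 ∣ (∑ k ∈ range j, ζ ^ k) * y := by
          have := dvd_sub hd (dvd_mul_right (ζ - 1) t)
          simpa using this
        have hunit : IsUnit (∑ k ∈ range j, ζ ^ k) :=
          S.prim.geom_sum_isUnit hp.two_le (Nat.coprime_of_lt_prime hj.1.ne' hj.2 hp).symm
        rcases hlam.dvd_or_dvd h1 with h | h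
        · exact hlam.not_isUnit (isUnit_of_dvd_unit h hunit)
        · exact hy h
    · exact ⟨0, fun h1 h2 => absurd ⟨h1, h2⟩ hj⟩
  choose u hu using L4
  have hprod := h14_pow_add_pow_eq_prod hp S.ne_two S.prim x y
  have hpq : p - 1 + 1 = p := by omega
  have hprod2 : ∏ i ∈ range (p - 1 + 1), (x + ζ ^ i * y)
      = (∏ i ∈ range (p - 1), (x + ζ ^ (i + 1) * y)) * (x + ζ ^ 0 * y) :=
    prod_range_succ' _ _
  rw [hpq] at hprod2
  have hfac : ∏ i ∈ range (p - 1), (x + ζ ^ (i + 1) * y)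
      = (ζ - 1) ^ (p - 1) * ∏ i ∈ range (p - 1), u (i + 1) := by
    calc ∏ i ∈ range (p - 1), (x + ζ ^ (i + 1) * y)
        = ∏ i ∈ range (p - 1), ((ζ - 1) * u (i + 1)) :=
          prod_congr rfl (fun i hi =>
            (hu (i + 1) (Nat.succ_pos i) (by have := mem_range.1 hi; omega)).1)
      _ = _ := by rw [prod_mul_distrib, prod_const, card_range]
  set P := ∏ i ∈ range (p - 1), u (i + 1) with hP
  have hPnd : ¬ ζ - 1 ∣ P := by
    intro h
    obtain ⟨i, hi, hdi⟩ := (hlam.dvd_finsetProd_iff _).1 h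
    exact (hu (i + 1) (Nat.succ_pos i) (by have := mem_range.1 hi; omega)).2 hdi
  have hexp : p * (m' + 1) = (p - 1) + (p * m' + 1) := by
    rw [Nat.mul_succ]; omega
  have heq : P * (x + y) = ε * (ζ - 1) ^ (p * m' + 1) * z ^ p := by
    have h1 : (ζ - 1) ^ (p - 1) * (P * (x + y))
        = (ζ - 1) ^ (p - 1) * (ε * (ζ - 1) ^ (p * m' + 1) * z ^ p) := by
      calc (ζ - 1) ^ (p - 1) * (P * (x + y)) = x ^ p + y ^ p := by
            rw [hprod, hprod2, hfac]; ring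
        _ = _ := by rw [H, hexp, pow_add]; ring
    exact mul_left_cancel₀ (pow_ne_zero _ hlam0) h1
  have hdiv : (ζ - 1) ^ (p * m' + 1) ∣ x + y := by
    refine hlam.pow_dvd_of_dvd_mul_left _ hPnd ?_
    rw [heq]; exact Dvd.dvd.mul_right (dvd_mul_left _ _) _
  obtain ⟨u0, hu0⟩ := hdiv
  have heq2 : P * u0 = ε * z ^ p := by
    have h1 : (ζ - 1) ^ (p * m' + 1) * (P * u0)
        = (ζ - 1) ^ (p * m' + 1) * (ε * z ^ p) := by
      rw [hu0] at heq; linear_combination heq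
    exact mul_left_cancel₀ (pow_ne_zero _ hlam0) h1
  have hu0nd : ¬ ζ - 1 ∣ u0 := by
    intro h
    have h1 : ζ - 1 ∣ (ε : R) * z ^ p := by rw [← heq2]; exact h.mul_left _
    rcases hlam.dvd_or_dvd h1 with h2 | h2
    · exact hlam.not_isUnit (isUnit_of_dvd_unit h2 ε.isUnit)
    · exact hz (hlam.dvd_of_dvd_pow h2)
  have hm' : 1 ≤ m' := by
    by_contra hcon
    have hm0 : m' = 0 := by omega
    subst hm0
    apply hu0nd
    obtain ⟨t, ht⟩ := hsq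
    have : (ζ - 1) * u0 = (ζ - 1) * ((ζ - 1) * t) := by
      rw [mul_zero, zero_add, pow_one] at hu0; rw [← hu0, ht]; ring
    exact ⟨t, mul_left_cancel₀ hlam0 this⟩
  refine ⟨hm', ?_⟩
  let U : ℕ → R := fun i => if i = 0 then u0 else u i
  have hU0 : U 0 = u0 := if_pos rfl
  have hUs : ∀ i, U (i + 1) = u (i + 1) := fun i => if_neg (Nat.succ_ne_zero i)
  have hUprod : ∏ i ∈ range p, U i = ε * z ^ p := by
    have h1 : ∏ i ∈ range (p - 1 + 1), U i
        = (∏ i ∈ range (p - 1), U (i + 1)) * U 0 := prod_range_succ' _ _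
    rw [hpq] at h1
    rw [h1, hU0, ← heq2]
    exact congrArg (· * u0) (prod_congr rfl (fun i _ => hUs i))
  have hUdvd : ∀ i, i < p → U i ∣ x + ζ ^ i * y := by
    intro i hi
    rcases Nat.eq_zero_or_pos i with rfl | hi0
    · rw [hU0, pow_zero, one_mul, hu0]; exact dvd_mul_left _ _
    · obtain ⟨k, rfl⟩ : ∃ k, i = k + 1 := ⟨i - 1, by omega⟩
      rw [hUs, (hu (k + 1) hi0 hi).1]; exact dvd_mul_left _ _
  have hUnd : ∀ i, i < p → ¬ ζ - 1 ∣ U i := by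
    intro i hi
    rcases Nat.eq_zero_or_pos i with rfl | hi0
    · rw [hU0]; exact hu0nd
    · obtain ⟨k, rfl⟩ : ∃ k, i = k + 1 := ⟨i - 1, by omega⟩
      rw [hUs]; exact (hu (k + 1) hi0 hi).2
  have hζunit : IsUnit ζ := S.prim.isUnit hp.ne_zero
  have hcop_lt : ∀ i j, i < j → j < p → IsCoprime (U i) (U j) := by
    intro i j hij hj
    have hi : i < p := hij.trans hj
    refine isCoprime_of_prime_dvd ?_ ?_
    · rintro ⟨-, h0⟩
      exact hUnd j hj (h0 ▸ dvd_zero _)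
    · intro π hπ hπi hπj
      have h1 : π ∣ x + ζ ^ i * y := hπi.trans (hUdvd i hi)
      have h2 : π ∣ x + ζ ^ j * y := hπj.trans (hUdvd j hj)
      obtain ⟨d, rfl⟩ : ∃ d, j = i + d := ⟨j - i, by omega⟩
      have hd0 : 0 < d := by omega
      have hdp : d < p := by omega
      have h3 : π ∣ (ζ ^ d - 1) * x := by
        have e : (ζ ^ d - 1) * x = ζ ^ d * (x + ζ ^ i * y) - (x + ζ ^ (i + d) * y) := by ring
        rw [e]; exact dvd_sub (h1.mul_left _) h2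
      have h4 : π ∣ (ζ ^ d - 1) * (ζ ^ i * y) := by
        have e : (ζ ^ d - 1) * (ζ ^ i * y) = (x + ζ ^ (i + d) * y) - (x + ζ ^ i * y) := by ring
        rw [e]; exact dvd_sub h2 h1
      have hassoc : Associated (ζ - 1) (ζ ^ d - 1) :=
        S.prim.associated_sub_one_pow_sub_one_of_coprime
          (Nat.coprime_of_lt_prime hd0.ne' hdp hp).symm
      by_cases hπl : π ∣ ζ ^ d - 1
      · have h5 : π ∣ ζ - 1 := hπl.trans hassoc.symm.dvd
        have h6 : Associated π (ζ - 1) := hπ.associated_of_dvd hlam h5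
        exact hUnd (i + d) hj (h6.symm.dvd.trans hπj)
      · have h7 : π ∣ x := (hπ.dvd_or_dvd h3).resolve_left hπl
        have h8 : π ∣ ζ ^ i * y := (hπ.dvd_or_dvd h4).resolve_left hπl
        have h9 : π ∣ y := ((hζunit.pow i).dvd_mul_left).1 h8
        exact hπ.not_isUnit (hxy.isUnit_of_dvd' h7 h9)
  have hcop : ∀ i j, i < p → j < p → i ≠ j → IsCoprime (U i) (U j) := by
    intro i j hi hj hij
    rcases lt_or_gt_of_ne hij with h | h
    · exact hcop_lt i j h hj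
    · exact (hcop_lt j i h hi).symm
  have hpow : ∀ i, i < p → ∃ ρ : R, Associated (ρ ^ p) (U i) := by
    intro i hi
    classical
    have h1 : U i * ∏ j ∈ (range p).erase i, U j = ε * z ^ p := by
      rw [mul_prod_erase _ _ (mem_range.2 hi), hUprod]
    have h2 : IsCoprime (U i) (∏ j ∈ (range p).erase i, U j) :=
      IsCoprime.prod_right fun j hj =>
        hcop i j hi (mem_range.1 (mem_of_mem_erase hj)) (ne_of_mem_erase hj).symm
    refine exists_associated_pow_of_associated_pow_mul h2 (c := z) ?_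
    rw [h1]
    exact associated_unit_mul_right _ _ ε.isUnit
  obtain ⟨ρ0, e0, he0⟩ := hpow 0 hp.pos
  obtain ⟨ρ1, e1, he1⟩ := hpow 1 (by omega)
  obtain ⟨ρ2, e2, he2⟩ := hpow 2 (by omega)
  have hU1 : x + ζ ^ 1 * y = (ζ - 1) * U 1 := by
    rw [hUs 0]; exact (hu 1 Nat.one_pos (by omega)).1
  have hU2 : x + ζ ^ 2 * y = (ζ - 1) * U 2 := by
    rw [hUs 1]; exact (hu 2 (by norm_num) (by omega)).1
  have hU0' : x + y = (ζ - 1) ^ (p * m' + 1) * U 0 := by rw [hU0]; exact hu0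
  have hid : U 1 * (1 + ζ) - U 2 = ζ * (ζ - 1) ^ (p * m') * U 0 := by
    have : (ζ - 1) * (U 1 * (1 + ζ) - U 2) = (ζ - 1) * (ζ * (ζ - 1) ^ (p * m') * U 0) := by
      have e : (ζ - 1) * (U 1 * (1 + ζ) - U 2)
          = (x + ζ ^ 1 * y) * (1 + ζ) - (x + ζ ^ 2 * y) := by rw [hU1, hU2]; ring
      rw [e]
      have e2 : (x + ζ ^ 1 * y) * (1 + ζ) - (x + ζ ^ 2 * y) = ζ * (x + y) := by ring
      rw [e2, hU0', pow_succ]; ring
    exact mul_left_cancel₀ hlam0 this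
  have h1ζ : IsUnit (1 + ζ) := by
    have h2p : Nat.Coprime 2 p := (Nat.coprime_primes Nat.prime_two hp).2 (by omega)
    have := S.prim.geom_sum_isUnit hp.two_le h2p
    simpa [Finset.sum_range_succ] using this
  obtain ⟨ζu, hζu'⟩ := hζunit
  obtain ⟨su, hsu⟩ := h1ζ
  let w : Rˣ := e1 * su
  let η' : Rˣ := -(e2 * w⁻¹)
  let ε'' : Rˣ := ζu * e0 * w⁻¹
  have hmain : ρ1 ^ p + (η' : R) * ρ2 ^ p = ε'' * (ζ - 1) ^ (p * m') * ρ0 ^ p := by
    rw [← he0, ← he1, ← he2] at hid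
    have hw1 : ((e1 : R) * (1 + ζ)) * ((w⁻¹ : Rˣ) : R) = 1 := by
      rw [← hsu, ← Units.val_mul, ← Units.val_mul]; simp [w]
    simp only [η', ε'', Units.val_neg, Units.val_mul, hζu']
    linear_combination ((w⁻¹ : Rˣ) : R) * hid - ρ1 ^ p * hw1
  have hpdvd : (p : R) ∣ (ζ - 1) ^ (p * m') := by
    have h1 : (ζ - 1) ^ (p - 1) ∣ (ζ - 1) ^ (p * m') :=
      pow_dvd_pow _ (by
        calc p - 1 ≤ p := Nat.sub_le _ _
          _ ≤ p * m' := Nat.le_mul_of_pos_right _ hm')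
    exact S.assoc.symm.dvd.trans h1
  have hsum : (p : R) ∣ ρ1 ^ p + (η' : R) * ρ2 ^ p := by
    rw [hmain]; exact Dvd.dvd.mul_right (hpdvd.mul_left _) _
  obtain ⟨n1, hn1⟩ := S.pow_mod ρ1
  obtain ⟨n2, hn2⟩ := S.pow_mod ρ2
  have hlp := h14_lam_dvd_p S
  have hρ2 : ¬ ζ - 1 ∣ ρ2 := by
    intro h
    apply hUnd 2 (by omega)
    rw [← he2]; exact Dvd.dvd.mul_right (dvd_pow h hp.ne_zero) _
  have hn2p : ¬ (p : ℤ) ∣ n2 := by
    intro h
    apply hρ2
    apply hlam.dvd_of_dvd_pow (n := p)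
    have h1 : ζ - 1 ∣ (n2 : R) := by
      obtain ⟨c, hc⟩ := h
      exact hlp.trans ⟨(c : R), by rw [hc]; push_cast; ring⟩
    have h2 : ζ - 1 ∣ ρ2 ^ p - n2 := hlp.trans hn2
    have := dvd_add h2 h1
    simpa using this
  obtain ⟨n2', hn2'⟩ : ∃ n2' : ℤ, (p : ℤ) ∣ n2 * n2' - 1 := by
    have hcop : IsCoprime n2 (p : ℤ) :=
      ((Nat.prime_iff_prime_int.mp hp).coprime_iff_not_dvd.2 hn2p).symm
    obtain ⟨a, b, hab⟩ := hcop
    exact ⟨a, ⟨-b, by linear_combination hab⟩⟩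
  have hη : (p : R) ∣ (η' : R) - ((-(n1 * n2') : ℤ) : R) := by
    obtain ⟨c, hc⟩ := hn2'
    obtain ⟨d1, hd1⟩ := hn1
    obtain ⟨d2, hd2⟩ := hn2
    obtain ⟨d3, hd3⟩ := hsum
    refine ⟨-(η' : R) * c + n2' * (d3 - d1 - η' * d2), ?_⟩
    have hc' : (n2 : R) * n2' - 1 = p * c := by
      exact_mod_cast congrArg (Int.cast : ℤ → R) hc
    push_cast
    linear_combination (-(η' : R)) * hc' + (n2' : R) * (hd3 - hd1 - (η' : R) * hd2)
  obtain ⟨v, hv⟩ := S.kummer η' _ hη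
  refine ⟨ρ1, v * ρ2, ρ0, ε'', ?_, ?_, ?_⟩
  · have h12 : IsCoprime (U 1) (U 2) := hcop 1 2 (by omega) (by omega) (by norm_num)
    have hd1 : ρ1 ∣ U 1 := by
      rw [← he1]; exact Dvd.dvd.mul_right (dvd_pow_self _ hp.ne_zero) _
    have hd2 : (v : R) * ρ2 ∣ U 2 := by
      rw [← he2, Units.mul_left_dvd]
      exact Dvd.dvd.mul_right (dvd_pow_self _ hp.ne_zero) _
    exact (h12.of_isCoprime_of_dvd_left hd1).of_isCoprime_of_dvd_right hd2
  · intro h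
    apply hUnd 0 hp.pos
    rw [← he0]; exact Dvd.dvd.mul_right (dvd_pow h hp.ne_zero) _
  · rw [mul_pow, ← Units.val_pow_eq_pow_val, ← hv]; exact hmain

theorem h14_step [IsPrincipalIdealRing R] (S : H14Setup R p ζ) (m' : ℕ)
    {x y z : R} {ε : Rˣ} (hxy : IsCoprime x y) (hz : ¬ ζ - 1 ∣ z)
    (H : x ^ p + y ^ p = ε * (ζ - 1) ^ (p * (m' + 1)) * z ^ p) :
    1 ≤ m' ∧ ∃ x' y' z' : R, ∃ ε' : Rˣ, IsCoprime x' y' ∧ ¬ ζ - 1 ∣ z' ∧
      x' ^ p + y' ^ p = ε' * (ζ - 1) ^ (p * m') * z' ^ p := by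
  have hdvd : ζ - 1 ∣ x ^ p + y ^ p := by
    rw [H]
    exact Dvd.dvd.mul_right (Dvd.dvd.mul_left
      (dvd_pow_self _ (Nat.mul_ne_zero S.prime_p.ne_zero (Nat.succ_ne_zero m'))) _) _
  obtain ⟨i, hi⟩ := h14_exists_sq_dvd S hxy hdvd
  have hζunit : IsUnit (ζ ^ i) := (S.prim.isUnit S.prime_p.ne_zero).pow i
  have hxy' : IsCoprime x (ζ ^ i * y) := (isCoprime_mul_unit_left_right hζunit x y).2 hxy
  have H' : x ^ p + (ζ ^ i * y) ^ p = ε * (ζ - 1) ^ (p * (m' + 1)) * z ^ p := by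
    rw [mul_pow, ← pow_mul, mul_comm i p, pow_mul, S.prim.pow_eq_one, one_pow, one_mul]
    exact H
  exact h14_step_normalized S m' hxy' hz hi H'

/-- The abstract second case: no solutions of `x ^ p + y ^ p = ε * (ζ - 1) ^ (p * m) * z ^ p`
with `m ≥ 1`, `x`, `y` coprime and `ζ - 1 ∤ z`. -/
theorem h14_no_solution [IsPrincipalIdealRing R] (S : H14Setup R p ζ) : ∀ (m' : ℕ)
    (x y z : R) (ε : Rˣ), IsCoprime x y → ¬ ζ - 1 ∣ z →
    x ^ p + y ^ p ≠ ε * (ζ - 1) ^ (p * (m' + 1)) * z ^ p := by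
  intro m'
  induction m' with
  | zero =>
    intro x y z ε hxy hz H
    have := (h14_step S 0 hxy hz H).1
    omega
  | succ n ih =>
    intro x y z ε hxy hz H
    obtain ⟨-, x', y', z', ε', hxy', hz', H'⟩ := h14_step S (n + 1) hxy hz H
    exact ih x' y' z' ε' hxy' hz' H'

end

end Fermat.Agent.S10
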