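import Mathlib
import Fermat.Agent.S10.Helper14Descent

set_option autoImplicit false

/-!
Helper14: the second case of Fermat's Last Theorem for a prime `p ≠ 2` such that the ring of
integers of the `p`-th cyclotomic field is a PID and Kummer's lemma holds.
-/

namespace Fermat.Agent.S10

open NumberField Polynomial

section

variable {p : ℕ} [hp : Fact p.Prime] {K : Type*} [Field K] [NumberField K]
  [IsCyclotomicExtension {p} ℚ K]

/-- Induction principle: `𝓞 K = ℤ[ζ]`. -/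
theorem h14_induction {ζ : K} (hζ : IsPrimitiveRoot ζ p) (P : 𝓞 K → Prop)
    (hζP : P hζ.toInteger) (hint : ∀ n : ℤ, P (n : 𝓞 K))
    (hadd : ∀ x y, P x → P y → P (x + y)) (hmul : ∀ x y, P x → P y → P (x * y))
    (x : 𝓞 K) : P x := by
  have htop : Algebra.adjoin ℤ {hζ.toInteger} = ⊤ :=
    IsCyclotomicExtension.Rat.adjoin_singleton_eq_top hζ
  have hx : x ∈ Algebra.adjoin ℤ {hζ.toInteger} := by rw [htop]; trivial
  induction hx using Algebra.adjoin_induction with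
  | mem y hy => rw [Set.mem_singleton_iff.1 hy]; exact hζP
  | algebraMap r => simpa using hint r
  | add y z _ _ hy hz => exact hadd y z hy hz
  | mul y z _ _ hy hz => exact hmul y z hy hz

theorem h14_setup (hp2 : p ≠ 2) {ζ : K} (hζ : IsPrimitiveRoot ζ p)
    (hk : ∀ (u : (𝓞 K)ˣ) (n : ℤ), (p : 𝓞 K) ∣ (u : 𝓞 K) - (n : 𝓞 K) → ∃ v : (𝓞 K)ˣ, u = v ^ p) :
    H14Setup (𝓞 K) p hζ.toInteger where
  prime_p := hp.out
  ne_two := hp2
  prim := hζ.toInteger_isPrimitiveRoot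
  prime_lam := hζ.zeta_sub_one_prime'
  assoc := IsCyclotomicExtension.Rat.associated_zeta_sub_one_pow_prime p hζ
  int_mod := by
    refine h14_induction hζ _ ⟨1, by simp⟩ (fun n => ⟨n, by simp⟩) ?_ ?_
    · rintro x y ⟨a, ha⟩ ⟨b, hb⟩
      refine ⟨a + b, ?_⟩
      have : x + y - ((a + b : ℤ) : 𝓞 K) = (x - a) + (y - b) := by push_cast; ring
      rw [this]; exact dvd_add ha hb
    · rintro x y ⟨a, ha⟩ ⟨b, hb⟩
      refine ⟨a * b, ?_⟩
      have : x * y - ((a * b : ℤ) : 𝓞 K) = (x - a) * y + a * (y - b) := by push_cast; ring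
      rw [this]; exact dvd_add (ha.mul_right _) (hb.mul_left _)
  dvd_int := fun n hn => (IsCyclotomicExtension.Rat.zeta_sub_one_dvd_intCast_iff' p hζ).1 hn
  pow_mod := by
    refine h14_induction hζ _ ⟨1, ?_⟩ (fun n => ⟨n ^ p, by simp⟩) ?_ ?_
    · rw [hζ.toInteger_isPrimitiveRoot.pow_eq_one]; simp
    · rintro x y ⟨a, ha⟩ ⟨b, hb⟩
      obtain ⟨r, hr⟩ := exists_add_pow_prime_eq hp.out x y
      refine ⟨a + b, ?_⟩
      have : (x + y) ^ p - ((a + b : ℤ) : 𝓞 K)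
          = (x ^ p - a) + (y ^ p - b) + (p : 𝓞 K) * (x * y * r) := by
        rw [hr]; push_cast; ring
      rw [this]; exact dvd_add (dvd_add ha hb) (dvd_mul_right _ _)
    · rintro x y ⟨a, ha⟩ ⟨b, hb⟩
      refine ⟨a * b, ?_⟩
      have : (x * y) ^ p - ((a * b : ℤ) : 𝓞 K) = (x ^ p - a) * y ^ p + a * (y ^ p - b) := by
        push_cast; ring
      rw [this]; exact dvd_add (ha.mul_right _) (hb.mul_left _)
  kummer := hk

end

/-- Second case of FLT for exponent `p` under PID + Kummer's lemma (same signature as the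
`caseII` interface of the S10 plan). -/
theorem h14_caseII {p : ℕ} [Fact p.Prime] (hp2 : p ≠ 2) (K : Type*) [Field K] [NumberField K]
    [IsCyclotomicExtension {p} ℚ K] [IsPrincipalIdealRing (𝓞 K)]
    (hk : ∀ (u : (𝓞 K)ˣ) (n : ℤ), (p : 𝓞 K) ∣ (u : 𝓞 K) - (n : 𝓞 K) → ∃ v : (𝓞 K)ˣ, u = v ^ p)
    {a b c : ℤ} (hab : IsCoprime a b) (hc : c ≠ 0) (hpc : (p : ℤ) ∣ c) :
    a ^ p + b ^ p ≠ c ^ p := by
  intro H
  have hp : p.Prime := Fact.out
  have hζ := IsCyclotomicExtension.zeta_spec p ℚ K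
  have S := h14_setup hp2 hζ hk
  -- write `c = p ^ k * c'` with `p ∤ c'`
  have hfin : FiniteMultiplicity (p : ℤ) c :=
    Int.finiteMultiplicity_iff.2 ⟨by simpa using hp.ne_one, hc⟩
  obtain ⟨c', hc', hpc'⟩ := hfin.exists_eq_pow_mul_and_not_dvd
  set k := multiplicity (p : ℤ) c with hk'
  have hk1 : 1 ≤ k := by
    by_contra hcon
    have hk0 : k = 0 := by omega
    rw [hk0, pow_zero, one_mul] at hc'
    exact hpc' (hc' ▸ hpc)
  obtain ⟨e, he⟩ := S.assoc
  -- `(p : 𝓞 K) = (ζ - 1) ^ (p - 1) * e`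
  have hm : (p - 1) * k = ((p - 1) * k - 1) + 1 := by
    have h1 : 1 ≤ p - 1 := by have := hp.two_le; omega
    have : 1 ≤ (p - 1) * k := Nat.one_le_iff_ne_zero.2 (Nat.mul_ne_zero (by omega) (by omega))
    omega
  refine h14_no_solution S ((p - 1) * k - 1) (a : 𝓞 K) (b : 𝓞 K) (c' : 𝓞 K) (e ^ (k * p))
    (IsCoprime.intCast hab) (fun h => hpc' (S.dvd_int c' h)) ?_
  rw [← hm]
  have H' : (a : 𝓞 K) ^ p + (b : 𝓞 K) ^ p = (c : 𝓞 K) ^ p := by exact_mod_cast H
  rw [H', hc']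
  push_cast
  rw [← he]
  ring

end Fermat.Agent.S10
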