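import Fermat.Agent.S10.Helper44PID
import Fermat.Agent.S10.Helper44Gen

set_option autoImplicit false

namespace Fermat.Agent.S10

open NumberField Ideal Module Polynomial

theorem h44_prime_11_23 (K : Type*) [Field K] [NumberField K] [IsCyclotomicExtension {11} ℚ K] :
    ∃ P ∈ primesOver (span {((23 : ℕ) : ℤ)}) (𝓞 K), Submodule.IsPrincipal P := by
  have : Fact (Nat.Prime 11) := ⟨by norm_num⟩
  have : Fact (Nat.Prime 23) := ⟨by norm_num⟩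
  have hΦ := h44_geom 11 K
  simp only [Finset.sum_range_succ, Finset.sum_range_zero, zero_add, pow_zero, pow_one] at hΦ
  have key : ∀ θ : 𝓞 K, 1 + θ + θ ^ 2 + θ ^ 3 + θ ^ 4 + θ ^ 5 + θ ^ 6 + θ ^ 7 + θ ^ 8 + θ ^ 9 + θ ^ 10 = 0 →
      ((23 : ℕ) : 𝓞 K) = (1 - θ + θ ^ 3) * (8 - 2 * θ - θ ^ 2 - 8 * θ ^ 3 - 5 * θ ^ 4 - 3 * θ ^ 5 + 6 * θ ^ 6 + 12 * θ ^ 7 + 16 * θ ^ 8 + 11 * θ ^ 9) ∧
      θ - (((-10) : ℤ) : 𝓞 K) = (1 - θ + θ ^ 3) * (3 - θ - θ ^ 2 - 4 * θ ^ 3 - 3 * θ ^ 4 - 2 * θ ^ 5 + 2 * θ ^ 6 + 5 * θ ^ 7 + 7 * θ ^ 8 + 5 * θ ^ 9) ∧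
      (1 - θ + θ ^ 3) = ((23 : ℕ) : 𝓞 K) * (-43) + (θ - (((-10) : ℤ) : 𝓞 K)) * (99 - 10 * θ + θ ^ 2) := by
    intro θ hθ
    refine ⟨?_, ?_, ?_⟩
    · push_cast
      linear_combination (15 - 5 * θ - 11 * θ ^ 2) * hθ
    · push_cast
      linear_combination (7 - 2 * θ - 5 * θ ^ 2) * hθ
    · push_cast
      ring
  obtain ⟨h1, h2, h3⟩ := key _ hΦ
  exact h44_principal_of_linear 11 23 K (-10) (by decide) _ _ _ _ _ h1 h2 h3

theorem h44_arith11 : ∀ q ∈ Finset.Icc 1 60, q.Prime → q ≠ 11 →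
    (q ∈ ({23} : Finset ℕ)) ∨ ∀ d ∈ Nat.divisors (11 - 1), q ^ d % 11 = 1 → 60 < q ^ d := by
  decide

/-- The ring of integers of the 11-th cyclotomic field is a PID. -/
theorem pid_eleven (K : Type*) [Field K] [NumberField K] [IsCyclotomicExtension {11} ℚ K] :
    IsPrincipalIdealRing (𝓞 K) := by
  have : Fact (Nat.Prime 11) := ⟨by norm_num⟩
  apply h44_pid_of_bound 11 K 60
  · rw [h44_minkowski_eq 11 K]
    have hpi : (4 / Real.pi) ≤ 4 / 3.14 := by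
      have := Real.pi_gt_d2
      gcongr
    have hsq : √((11 : ℝ) ^ (11 - 2)) < 48560 := by
      rw [Real.sqrt_lt' (by norm_num)]
      norm_num
    calc (4 / Real.pi) ^ ((11 - 1) / 2) *
          ((Nat.factorial (11 - 1)) / ((11 - 1 : ℕ) : ℝ) ^ (11 - 1) * √(((11 : ℕ) : ℝ) ^ (11 - 2)))
        ≤ (4 / 3.14) ^ ((11 - 1) / 2) *
          ((Nat.factorial (11 - 1)) / ((11 - 1 : ℕ) : ℝ) ^ (11 - 1) * 48560) := by
          push_cast
          gcongr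
      _ < ((60 : ℕ) : ℝ) + 1 := by
          norm_num [Nat.factorial]
  · intro q hq hqprime hq11
    rcases h44_arith11 q hq hqprime hq11 with hmem | h
    · right
      rw [Finset.mem_singleton] at hmem
      subst hmem
      exact h44_prime_11_23 K
    · exact Or.inl h

end Fermat.Agent.S10
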