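import Mathlib

/-!
# Kummer's lemma from a finite table check (helper73, S10/M4 generic part)
-/

namespace Fermat.Agent.S10

open Polynomial NumberField

theorem h73_prod_zpow_eq {E κ : Type*} [CommGroup E] (s : Finset κ) (x : E) (f : κ → ℤ) :
    ∏ k ∈ s, x ^ f k = x ^ ∑ k ∈ s, f k := by
  classical
  induction s using Finset.induction_on with
  | empty => simp
  | insert a s ha ih => rw [Finset.prod_insert ha, Finset.sum_insert ha, ih, zpow_add]

theorem h73_pow_of_indep {E ι κ : Type*} [CommGroup E] [Fintype ι] [Fintype κ]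
    (p : ℕ) [hp : Fact p.Prime] (hcard : Fintype.card ι ≤ Fintype.card κ)
    (g : ι → E) (hg : ∀ x : E, ∃ n : ι → ℤ, x = ∏ i, g i ^ n i)
    (P : E → Prop) (hmul : ∀ x y, P x → P y → P (x * y)) (hpow : ∀ x : E, P (x ^ p))
    (c : κ → E)
    (hc : ∀ e : κ → ℕ, P (∏ k, c k ^ e k) → ∀ k, p ∣ e k) :
    ∀ u, P u → ∃ v : E, u = v ^ p := by
  classical
  have : NeZero p := ⟨hp.out.ne_zero⟩
  choose A hA using fun k => hg (c k)
  let Abar : κ → (ι → ZMod p) := fun k i => (A k i : ZMod p)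
  have key : ∀ e : κ → ℕ, ∏ k, c k ^ e k = ∏ i, g i ^ (∑ k, (e k : ℤ) * A k i) := by
    intro e
    have h1 : ∀ k, c k ^ e k = ∏ i, g i ^ ((e k : ℤ) * A k i) := by
      intro k
      conv_lhs => rw [hA k]
      rw [← Finset.prod_pow]
      refine Finset.prod_congr rfl fun i _ => ?_
      rw [← zpow_natCast, ← zpow_mul, mul_comm]
    simp_rw [h1]
    rw [Finset.prod_comm]
    refine Finset.prod_congr rfl fun i _ => ?_
    rw [h73_prod_zpow_eq]
  have hval : ∀ (a : κ → ZMod p) (i : ι),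
      ((∑ k, ((a k).val : ℤ) * A k i : ℤ) : ZMod p) = (∑ k, a k • Abar k) i := by
    intro a i
    simp [Abar]
  have hli : LinearIndependent (ZMod p) Abar := by
    rw [Fintype.linearIndependent_iff]
    intro a ha k
    have hdiv : ∀ i, (p : ℤ) ∣ ∑ k, ((a k).val : ℤ) * A k i := by
      intro i
      rw [← ZMod.intCast_zmod_eq_zero_iff_dvd, hval, ha]
      rfl
    choose m hm using hdiv
    have hP : P (∏ k, c k ^ (a k).val) := by
      rw [key]
      have h2 : ∏ i, g i ^ (∑ k, ((a k).val : ℤ) * A k i) = (∏ i, g i ^ m i) ^ p := by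
        rw [← Finset.prod_pow]
        refine Finset.prod_congr rfl fun i _ => ?_
        rw [hm i, ← zpow_natCast, ← zpow_mul, mul_comm]
      rw [h2]; exact hpow _
    have h3 := hc (fun k => (a k).val) hP k
    have h4 : ((a k).val : ZMod p) = 0 := (ZMod.natCast_eq_zero_iff _ _).2 h3
    rwa [ZMod.natCast_zmod_val] at h4
  have hcard' : Fintype.card κ = Module.finrank (ZMod p) (ι → ZMod p) := by
    have h5 := hli.fintype_card_le_finrank
    rw [Module.finrank_pi] at h5 ⊢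
    omega
  have hspan : Submodule.span (ZMod p) (Set.range Abar) = ⊤ :=
    hli.span_eq_top_of_card_eq_finrank' hcard'
  intro u hu
  obtain ⟨n, hn⟩ := hg u
  have hmem : (fun i => (n i : ZMod p)) ∈ Submodule.span (ZMod p) (Set.range Abar) := by
    rw [hspan]; trivial
  obtain ⟨a, ha⟩ := (Submodule.mem_span_range_iff_exists_fun (ZMod p)).1 hmem
  have hdiv : ∀ i, (p : ℤ) ∣ ∑ k, ((a k).val : ℤ) * A k i - n i := by
    intro i
    rw [← ZMod.intCast_zmod_eq_zero_iff_dvd]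
    push_cast
    have := hval a i
    push_cast at this
    rw [this, ha, sub_self]
  choose m hm using hdiv
  have h6 : ∏ k, c k ^ (a k).val = u * (∏ i, g i ^ m i) ^ p := by
    rw [key, hn, ← Finset.prod_pow, ← Finset.prod_mul_distrib]
    refine Finset.prod_congr rfl fun i _ => ?_
    rw [← zpow_natCast, ← zpow_mul, ← zpow_add, mul_comm (m i), ← hm i]
    congr 1; ring
  have hP : P (∏ k, c k ^ (a k).val) := by
    rw [h6]; exact hmul _ _ hu (hpow _)
  have h7 := hc (fun k => (a k).val) hP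
  choose f hf using h7
  refine ⟨(∏ k, c k ^ f k) * (∏ i, g i ^ m i)⁻¹, ?_⟩
  rw [mul_pow, inv_pow, eq_mul_inv_iff_mul_eq, ← h6, ← Finset.prod_pow]
  refine Finset.prod_congr rfl fun k _ => ?_
  rw [← pow_mul, mul_comm]
  exact congrArg _ (hf k)

/-- `h_k = ∑_{i<k+2} (1+X)^i` over `ZMod p`. -/
noncomputable def h73_h (p : ℕ) (k : ℕ) : (ZMod p)[X] := ∑ i ∈ Finset.range (k + 2), (1 + X) ^ i

theorem h73_X_mul_h (p k : ℕ) : X * h73_h p k = (1 + X) ^ (k + 2) - 1 := by
  have := mul_geom_sum (1 + X : (ZMod p)[X]) (k + 2)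
  rw [add_sub_cancel_left] at this
  exact this

theorem h73_coeff_h (p k i : ℕ) : (h73_h p k).coeff i = ((k + 2).choose (i + 1) : ZMod p) := by
  have h1 : (X * h73_h p k).coeff (i + 1) = (h73_h p k).coeff i := coeff_X_mul _ _
  rw [← h1, h73_X_mul_h, coeff_sub, coeff_one_add_X_pow, coeff_one]
  simp

/-- the polynomial attached to a table row -/
noncomputable def h73_L (p : ℕ) (l : ℕ → ℕ) : (ZMod p)[X] :=
  ∑ i ∈ Finset.range (p - 2), C (l i : ZMod p) * X ^ i

theorem h73_coeff_L (p : ℕ) (l : ℕ → ℕ) (i : ℕ) (hi : i < p - 2) :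
    (h73_L p l).coeff i = (l i : ZMod p) := by
  unfold h73_L
  rw [finsetSum_coeff]
  simp only [coeff_C_mul_X_pow]
  rw [Finset.sum_eq_single i]
  · simp
  · intro b _ hb
    simp [Ne.symm hb]
  · intro h
    exact absurd (Finset.mem_range.2 hi) h

/-- `X^n ∣ f' - f * lam` : "lam is the logarithmic derivative of f modulo X^n". -/
def h73_D (p n : ℕ) (f lam : (ZMod p)[X]) : Prop := X ^ n ∣ derivative f - f * lam

theorem h73_D_one (p n : ℕ) : h73_D p n 1 0 := by
  unfold h73_D; simp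

theorem h73_D_mul {p n : ℕ} {f g lam mu : (ZMod p)[X]} (hf : h73_D p n f lam) (hg : h73_D p n g mu) :
    h73_D p n (f * g) (lam + mu) := by
  unfold h73_D at *
  have : derivative (f * g) - f * g * (lam + mu)
      = (derivative f - f * lam) * g + f * (derivative g - g * mu) := by
    rw [derivative_mul]; ring
  rw [this]
  exact dvd_add (Dvd.dvd.mul_right hf _) (Dvd.dvd.mul_left hg _)

theorem h73_D_pow {p n : ℕ} {f lam : (ZMod p)[X]} (hf : h73_D p n f lam) (e : ℕ) :
    h73_D p n (f ^ e) ((e : (ZMod p)[X]) * lam) := by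
  induction e with
  | zero => simpa using h73_D_one p n
  | succ e ih =>
    have := h73_D_mul ih hf
    rw [pow_succ]
    convert this using 1
    push_cast; ring

theorem h73_D_prod {p n : ℕ} {κ : Type*} (s : Finset κ) (f lam : κ → (ZMod p)[X]) (e : κ → ℕ)
    (hf : ∀ k ∈ s, h73_D p n (f k) (lam k)) :
    h73_D p n (∏ k ∈ s, f k ^ e k) (∑ k ∈ s, (e k : (ZMod p)[X]) * lam k) := by
  classical
  induction s using Finset.induction_on with
  | empty => simpa using h73_D_one p n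
  | insert a s ha ih =>
    rw [Finset.prod_insert ha, Finset.sum_insert ha]
    exact h73_D_mul (h73_D_pow (hf a (Finset.mem_insert_self a s)) _)
      (ih fun k hk => hf k (Finset.mem_insert_of_mem hk))

/-- table condition (C1) gives the logarithmic derivative of `h_k`. -/
theorem h73_D_h (p : ℕ) (k : ℕ) (l : ℕ → ℕ)
    (h1 : ∀ i < p - 2, (∑ j ∈ Finset.range (i + 1), (k + 2).choose (j + 1) * l (i - j)) % p
      = ((i + 1) * (k + 2).choose (i + 2)) % p) :
    h73_D p (p - 2) (h73_h p k) (h73_L p l) := by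
  unfold h73_D
  rw [X_pow_dvd_iff]
  intro i hi
  rw [coeff_sub, coeff_derivative, coeff_mul, Finset.Nat.sum_antidiagonal_eq_sum_range_succ_mk,
    h73_coeff_h, sub_eq_zero]
  have h2 : ∀ j ∈ Finset.range (i + 1), (h73_h p k).coeff j * (h73_L p l).coeff (i - j)
      = (((k + 2).choose (j + 1) * l (i - j) : ℕ) : ZMod p) := by
    intro j hj
    rw [h73_coeff_h, h73_coeff_L p l (i - j) (by omega)]
    push_cast; ring
  rw [Finset.sum_congr rfl h2, ← Nat.cast_sum]
  have h3 := h1 i hi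
  have h4 : ((∑ j ∈ Finset.range (i + 1), (k + 2).choose (j + 1) * l (i - j) : ℕ) : ZMod p)
      = (((i + 1) * (k + 2).choose (i + 2) : ℕ) : ZMod p) :=
    (ZMod.natCast_eq_natCast_iff' _ _ _).2 h3
  rw [h4]
  push_cast; ring


theorem h73_poly_main {p : ℕ} [hp : Fact p.Prime] (s : ℕ) (hs : s + 1 < p)
    (l : ℕ → ℕ → ℕ)
    (h1 : ∀ k < s, ∀ i < p - 2,
      (∑ j ∈ Finset.range (i + 1), (k + 2).choose (j + 1) * l k (i - j)) % p
        = ((i + 1) * (k + 2).choose (i + 2)) % p)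
    (e : Fin s → ℕ) (c : ZMod p)
    (hF : X ^ (p - 1) ∣ ∏ k : Fin s, h73_h p k ^ e k - C c) :
    ∀ i < p - 2, ∑ k : Fin s, (e k : ZMod p) * (l k i : ZMod p) = 0 := by
  set F : (ZMod p)[X] := ∏ k : Fin s, h73_h p k ^ e k with hFdef
  set Lam : (ZMod p)[X] := ∑ k : Fin s, (e k : (ZMod p)[X]) * h73_L p (l k) with hLam
  have hD : h73_D p (p - 2) F Lam :=
    h73_D_prod Finset.univ (fun k : Fin s => h73_h p k) (fun k : Fin s => h73_L p (l k)) e
      (fun k _ => h73_D_h p k (l k) (h1 k k.2))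
  have hF' : X ^ (p - 2) ∣ derivative F := by
    have := pow_sub_one_dvd_derivative_of_pow_dvd hF
    rw [derivative_sub, derivative_C, sub_zero] at this
    exact this
  have hFL : X ^ (p - 2) ∣ F * Lam := by
    have h3 := dvd_sub hF' hD
    rwa [sub_sub_cancel] at h3
  have hX : ¬ (X : (ZMod p)[X]) ∣ F := by
    rw [X_dvd_iff, coeff_zero_eq_eval_zero, hFdef, eval_prod]
    simp only [eval_pow]
    rw [Finset.prod_eq_zero_iff]
    rintro ⟨k, -, hk⟩
    have h4 := eq_zero_of_pow_eq_zero hk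
    rw [← coeff_zero_eq_eval_zero, h73_coeff_h, Nat.choose_one_right,
      ZMod.natCast_eq_zero_iff] at h4
    have := Nat.le_of_dvd (by omega) h4
    have := k.2
    omega
  have hL : X ^ (p - 2) ∣ Lam := prime_X.pow_dvd_of_dvd_mul_left _ hX hFL
  rw [X_pow_dvd_iff] at hL
  intro i hi
  have h5 := hL i hi
  rw [hLam, finsetSum_coeff] at h5
  rw [← h5]
  refine Finset.sum_congr rfl fun k _ => ?_
  rw [← C_eq_natCast, coeff_C_mul, h73_coeff_L p (l k) i hi]

theorem h73_indep_of_table {p : ℕ} [hp : Fact p.Prime] (s : ℕ) (l mu : ℕ → ℕ → ℕ)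
    (h2 : ∀ k < s, ∀ k0 < s,
      (∑ i ∈ Finset.range (p - 2), mu k0 i * l k i) % p = if k = k0 then 1 else 0)
    (a : Fin s → ZMod p) (ha : ∀ i < p - 2, ∑ k : Fin s, a k * (l k i : ZMod p) = 0) :
    ∀ k, a k = 0 := by
  intro k0
  have h3 : ∀ k : Fin s, ((∑ i ∈ Finset.range (p - 2), mu k0 i * l k i : ℕ) : ZMod p)
      = if k = k0 then 1 else 0 := by
    intro k
    rw [← ZMod.natCast_mod, h2 k k.2 k0 k0.2]
    by_cases h : k = k0
    · simp [h]
    · have : (k : ℕ) ≠ k0 := fun h' => h (Fin.ext h')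
      simp [h, this]
  have h4 : a k0 = ∑ k : Fin s, a k * (if k = k0 then 1 else 0) := by
    simp
  rw [h4]
  simp_rw [← h3]
  push_cast
  simp_rw [Finset.mul_sum]
  rw [Finset.sum_comm]
  refine Finset.sum_eq_zero fun i hi => ?_
  have h5 := ha i (Finset.mem_range.1 hi)
  have h6 : ∑ k : Fin s, a k * ((mu k0 i : ZMod p) * (l k i : ZMod p))
      = (mu k0 i : ZMod p) * ∑ k : Fin s, a k * (l k i : ZMod p) := by
    rw [Finset.mul_sum]
    refine Finset.sum_congr rfl fun k _ => ?_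
    ring
  rw [h6, h5, mul_zero]

/-- the truncated polynomial ring `(ZMod p)[X] / (X^(p-1))` -/
abbrev h73_B (p : ℕ) : Type := (ZMod p)[X] ⧸ Ideal.span {(X : (ZMod p)[X]) ^ (p - 1)}

theorem h73_geom_one_add_X (p : ℕ) [hp : Fact p.Prime] :
    ∑ i ∈ Finset.range p, (1 + X : (ZMod p)[X]) ^ i = X ^ (p - 1) := by
  have h1 := mul_geom_sum (1 + X : (ZMod p)[X]) p
  rw [add_sub_cancel_left, add_pow_char, one_pow, add_sub_cancel_left] at h1
  have h2 : (X : (ZMod p)[X]) ^ p = X * X ^ (p - 1) := by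
    rw [← pow_succ', Nat.sub_add_cancel hp.out.one_le]
  rw [h2] at h1
  exact mul_left_cancel₀ X_ne_zero h1

theorem h73_pow_const (p : ℕ) [hp : Fact p.Prime] (b : h73_B p) :
    ∃ c : ZMod p, b ^ p = Ideal.Quotient.mk _ (C c) := by
  obtain ⟨f, rfl⟩ := Ideal.Quotient.mk_surjective b
  refine ⟨f.coeff 0, ?_⟩
  rw [← map_pow, Ideal.Quotient.eq, Ideal.mem_span_singleton, ← ZMod.expand_card]
  have h1 : (X : (ZMod p)[X]) ^ p ∣ expand (ZMod p) p f - C (f.coeff 0) := by
    rw [X_pow_dvd_iff]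
    intro d hd
    rw [coeff_sub, coeff_expand hp.out.pos, coeff_C]
    rcases Nat.eq_zero_or_pos d with rfl | hd0
    · simp
    · have : ¬ p ∣ d := Nat.not_dvd_of_pos_of_lt hd0 hd
      simp [this, hd0.ne']
  exact dvd_trans (pow_dvd_pow X (Nat.sub_le p 1)) h1

theorem h73_exists_hom (p : ℕ) [hp : Fact p.Prime] (K : Type*) [Field K] [NumberField K]
    [IsCyclotomicExtension {p} ℚ K] {ζ : K} (hζ : IsPrimitiveRoot ζ p) :
    ∃ φ : 𝓞 K →+* h73_B p, φ hζ.toInteger = Ideal.Quotient.mk _ (1 + X) := by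
  have : NeZero p := ⟨hp.out.ne_zero⟩
  let y : h73_B p := Ideal.Quotient.mk _ (1 + X)
  have hy : aeval y (minpoly ℤ hζ.integralPowerBasis.gen) = 0 := by
    have h0 : minpoly ℤ hζ.toInteger = cyclotomic p ℤ := by
      rw [cyclotomic_eq_minpoly hζ hp.out.pos]
      exact (minpoly.algebraMap_eq (RingOfIntegers.coe_injective) hζ.toInteger).symm
    rw [hζ.integralPowerBasis_gen, h0]
    have h1 : aeval y (cyclotomic p ℤ)
        = Ideal.Quotient.mkₐ ℤ (Ideal.span {(X : (ZMod p)[X]) ^ (p - 1)})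
            (aeval (1 + X : (ZMod p)[X]) (cyclotomic p ℤ)) := by
      rw [← aeval_algHom_apply]; rfl
    rw [h1, aeval_def, eval₂_eq_eval_map, map_cyclotomic, cyclotomic_prime, eval_finsetSum]
    simp only [eval_pow, eval_X]
    rw [h73_geom_one_add_X]
    exact Ideal.Quotient.eq_zero_iff_mem.2 (Ideal.mem_span_singleton_self _)
  refine ⟨(hζ.integralPowerBasis.lift y hy).toRingHom, ?_⟩
  have h2 := hζ.integralPowerBasis.lift_gen y hy
  rw [hζ.integralPowerBasis_gen] at h2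
  exact h2

theorem h73_units_generators (K : Type*) [Field K] [NumberField K] :
    ∃ g : Fin (Units.rank K + 1) → (𝓞 K)ˣ,
      ∀ x : (𝓞 K)ˣ, ∃ n : Fin (Units.rank K + 1) → ℤ, x = ∏ i, g i ^ n i := by
  obtain ⟨t, ht⟩ := IsCyclic.exists_generator (α := Units.torsion K)
  refine ⟨Fin.cons (t : (𝓞 K)ˣ) (Units.fundSystem K), fun x => ?_⟩
  obtain ⟨⟨z, e⟩, hx, -⟩ := Units.exist_unique_eq_mul_prod K x
  obtain ⟨m, hm⟩ := Subgroup.mem_zpowers_iff.1 (ht z)
  refine ⟨Fin.cons m e, ?_⟩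
  rw [Fin.prod_univ_succ]
  simp only [Fin.cons_zero, Fin.cons_succ]
  rw [hx, ← hm]
  simp

theorem h73_rank (p : ℕ) [hp : Fact p.Prime] (hp2 : p ≠ 2) (K : Type*) [Field K] [NumberField K]
    [IsCyclotomicExtension {p} ℚ K] : Units.rank K + 1 = (p - 1) / 2 := by
  have : NeZero p := ⟨hp.out.ne_zero⟩
  have hp3 : 2 < p := lt_of_le_of_ne hp.out.two_le (Ne.symm hp2)
  have h1 : Units.rank K = Fintype.card (InfinitePlace K) - 1 := rfl
  rw [h1, InfinitePlace.card_eq_nrRealPlaces_add_nrComplexPlaces,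
    IsCyclotomicExtension.Rat.nrRealPlaces_eq_zero (n := p) K hp3, zero_add,
    IsCyclotomicExtension.Rat.nrComplexPlaces_eq_totient_div_two (n := p), Nat.totient_prime hp.out]
  omega

/-- **Kummer's lemma from numeric tables.** `l k` is (a lift of) the logarithmic derivative of
`h_k = ∑_{i<k+2} (1+X)^i` modulo `X^(p-2)` over `ZMod p` (checked by `h1`), and `mu` is a left
inverse certificate showing that these logarithmic derivatives are linearly independent (`h2`). -/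
theorem kummer_of_tables {p : ℕ} [hp : Fact p.Prime] (hp2 : p ≠ 2)
    (l mu : ℕ → ℕ → ℕ)
    (h1 : ∀ k < (p - 1) / 2, ∀ i < p - 2,
      (∑ j ∈ Finset.range (i + 1), (k + 2).choose (j + 1) * l k (i - j)) % p
        = ((i + 1) * (k + 2).choose (i + 2)) % p)
    (h2 : ∀ k < (p - 1) / 2, ∀ k0 < (p - 1) / 2,
      (∑ i ∈ Finset.range (p - 2), mu k0 i * l k i) % p = if k = k0 then 1 else 0)
    (K : Type*) [Field K] [NumberField K] [IsCyclotomicExtension {p} ℚ K]
    (u : (𝓞 K)ˣ) (n : ℤ) (h : (p : 𝓞 K) ∣ (u : 𝓞 K) - (n : 𝓞 K)) :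
    ∃ v : (𝓞 K)ˣ, u = v ^ p := by
  classical
  have hNZ : NeZero p := ⟨hp.out.ne_zero⟩
  have hp3 : 2 < p := lt_of_le_of_ne hp.out.two_le (Ne.symm hp2)
  have hs1 : (p - 1) / 2 + 1 < p := by omega
  have hζ : IsPrimitiveRoot (IsCyclotomicExtension.zeta p ℚ K) p :=
    IsCyclotomicExtension.zeta_spec p ℚ K
  obtain ⟨φ, hφ⟩ := h73_exists_hom p K hζ
  let P : (𝓞 K)ˣ → Prop := fun x =>
    ∃ c : ZMod p, φ (x : 𝓞 K) = Ideal.Quotient.mk _ (C c)
  have hmul : ∀ x y, P x → P y → P (x * y) := by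
    rintro x y ⟨c, hc⟩ ⟨d, hd⟩
    refine ⟨c * d, ?_⟩
    rw [Units.val_mul, map_mul, hc, hd, C_mul, map_mul]
  have hpow : ∀ x, P (x ^ p) := by
    intro x
    obtain ⟨c, hc⟩ := h73_pow_const p (φ (x : 𝓞 K))
    exact ⟨c, by rw [Units.val_pow_eq_pow_val, map_pow, hc]⟩
  have hunit : ∀ k : Fin ((p - 1) / 2),
      IsUnit (∑ i ∈ Finset.range ((k : ℕ) + 2), hζ.toInteger ^ i) := by
    intro k
    refine hζ.toInteger_isPrimitiveRoot.geom_sum_isUnit hp.out.two_le ?_
    refine Nat.Coprime.symm ((Nat.Prime.coprime_iff_not_dvd hp.out).2 ?_)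
    refine Nat.not_dvd_of_pos_of_lt (by omega) ?_
    have := k.2
    omega
  let c : Fin ((p - 1) / 2) → (𝓞 K)ˣ := fun k => (hunit k).unit
  have hφc : ∀ k : Fin ((p - 1) / 2),
      φ (c k : 𝓞 K) = Ideal.Quotient.mk _ (h73_h p k) := by
    intro k
    show φ ((hunit k).unit : 𝓞 K) = _
    rw [IsUnit.unit_spec, map_sum, h73_h, map_sum]
    refine Finset.sum_congr rfl fun i _ => ?_
    rw [map_pow, hφ, map_pow]
  have hc : ∀ e : Fin ((p - 1) / 2) → ℕ, P (∏ k, c k ^ e k) → ∀ k, p ∣ e k := by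
    rintro e ⟨d, hd⟩ k
    have h3 : Ideal.Quotient.mk (Ideal.span {(X : (ZMod p)[X]) ^ (p - 1)})
        (∏ k : Fin ((p - 1) / 2), h73_h p k ^ e k - C d) = 0 := by
      rw [map_sub, sub_eq_zero, ← hd, map_prod, Units.coe_prod, map_prod]
      refine Finset.prod_congr rfl fun k _ => ?_
      rw [Units.val_pow_eq_pow_val, map_pow, map_pow, hφc]
    rw [Ideal.Quotient.eq_zero_iff_mem, Ideal.mem_span_singleton] at h3
    have h4 := h73_poly_main ((p - 1) / 2) hs1 l h1 e d h3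
    have h5 := h73_indep_of_table ((p - 1) / 2) l mu h2 (fun k => (e k : ZMod p)) h4 k
    exact (ZMod.natCast_eq_zero_iff _ _).1 h5
  obtain ⟨g, hg⟩ := h73_units_generators K
  have hcard : Fintype.card (Fin (Units.rank K + 1)) ≤ Fintype.card (Fin ((p - 1) / 2)) := by
    rw [Fintype.card_fin, Fintype.card_fin, h73_rank p hp2 K]
  have hPu : P u := by
    obtain ⟨w, hw⟩ := h
    refine ⟨(n : ZMod p), ?_⟩
    have h6 : (u : 𝓞 K) = n + p * w := by rw [← hw]; ring
    have h7 : ((p : ℕ) : h73_B p) = 0 := by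
      have : ((p : ℕ) : h73_B p) = Ideal.Quotient.mk _ (C ((p : ℕ) : ZMod p)) := by
        rw [← map_natCast (Ideal.Quotient.mk (Ideal.span {(X : (ZMod p)[X]) ^ (p - 1)})) p,
          C_eq_natCast]
      rw [this, ZMod.natCast_self, C_0, map_zero]
    rw [h6, map_add, map_mul, map_intCast, map_natCast, h7, zero_mul, add_zero,
      ← map_intCast (Ideal.Quotient.mk (Ideal.span {(X : (ZMod p)[X]) ^ (p - 1)})) n, C_eq_intCast]
  exact h73_pow_of_indep p hcard g hg P hmul hpow c hc u hPu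

end Fermat.Agent.S10
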