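import Fermat.Agent.S10.Helper44P11

set_option autoImplicit false

namespace Fermat.Agent.S10

open NumberField

/-- The ring of integers of the 11-th cyclotomic field is a PID (interface name of task M3c). -/
theorem eleven_pid (K : Type*) [Field K] [NumberField K] [IsCyclotomicExtension {11} ℚ K] :
    IsPrincipalIdealRing (𝓞 K) :=
  pid_eleven K

end Fermat.Agent.S10
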